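import Fermat.Agent.S56.Tame.Main

/-!
# S56 / LOC-UR : cocycles on `D_v` whose restriction to inertia is a coboundary.

`v : Nat.Primes`, `A = primeLocalPlace v`, `D = decomp v = A.decompositionSubgroup ℚ`, `I = A.inertiaSubgroupIn ℚ ≤ D`, `φ` a Frobenius.  `ρ : Representation k GQ W`.
[UR-INJ] `c ∈ Z1loc ρ v`, `c = 0` on `I`, `c φ = 0` ⟹ `c = 0`.   [`c` is constant mod `U = F.fixingSubgroup`; FROB-GEN: `σ = φ^n τ u`; `c (φ^n τ u) = c (φ^n τ) = c (φ^n) + φ^n c τ = c (φ^n) = 0`.]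
[UR-FIX] `c = 0` on `I` ⟹ `c σ ∈ W^I` for all `σ ∈ D`.   [`c (i σ) = i c σ`, `i σ = σ i'`, `c (σ i') = c σ`.]
[UR-CARD] `Lur ρ v := {c ∈ Z1loc | ∃ w, ∀ σ ∈ I, c σ = σ w - w}`; `W` finite ⟹ `#Lur ≤ #W`.
  [`π : Lur → W / W^I`, `c ↦ [w]` is well defined and linear; `ker π = {c : c|_I = 0} ↪ W^I` by `c ↦ c φ`; `#Lur ≤ #(W/W^I) #W^I = #W`.]
-/

set_option autoImplicit false

open ExtCitation

namespace Fermat.Agent.S56

open CFT (levS levAll decomp Z1 B1 Qb)

variable {k : Type} [CommRing k] {W : Type} [AddCommGroup W] [Module k W]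

theorem liesOverPrime_primeLocalPlace (v : Nat.Primes) : (primeLocalPlace v).LiesOverPrime (v : ℕ) := by
  have : Fact (v : ℕ).Prime := ⟨v.2⟩
  change ((v : ℕ) : Qb) ∈ (padicPlace (v : ℕ)).nonunits
  rw [Bridge.mem_nonunits_iff_inv]
  right
  rw [mem_padicPlace_iff, map_inv₀, map_natCast, nnnorm_inv, ← NNReal.coe_le_coe, NNReal.coe_inv,
    coe_nnnorm]
  have h1 : ‖(((v : ℕ) : ℚ_[(v : ℕ)]) : PadicAlgCl (v : ℕ))‖ = ‖((v : ℕ) : ℚ_[(v : ℕ)])‖ :=
    PadicAlgCl.norm_extends _ _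
  have h2 : (((v : ℕ) : ℚ_[(v : ℕ)]) : PadicAlgCl (v : ℕ)) = ((v : ℕ) : PadicAlgCl (v : ℕ)) :=
    map_natCast _ _
  rw [h2, Padic.norm_p] at h1
  rw [h1, inv_inv, NNReal.coe_one, not_le]
  exact_mod_cast v.2.one_lt

/-- the inertia subgroup at the distinguished place -/
noncomputable abbrev inert (v : Nat.Primes) : Subgroup GQ := (primeLocalPlace v).inertiaSubgroupIn ℚ

theorem inert_le_decomp (v : Nat.Primes) : inert v ≤ decomp v :=
  Subgroup.map_subtype_le _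

/-- cocycles on `D_v` which become coboundaries on `I_v` -/
noncomputable def Lur (ρ : Representation k GQ W) (v : Nat.Primes) : Submodule k (↥(decomp v) → W) where
  carrier := {c | c ∈ Z1loc ρ v ∧ ∃ w : W, ∀ σ : ↥(decomp v), (σ : GQ) ∈ inert v → c σ = ρ σ w - w}
  add_mem' := by
    rintro a b ⟨ha, w, hw⟩ ⟨hb, w', hw'⟩
    exact ⟨add_mem ha hb, w + w', fun σ hσ => by
      rw [Pi.add_apply, hw σ hσ, hw' σ hσ, map_add]; abel⟩
  zero_mem' := ⟨zero_mem _, 0, fun σ _ => by simp⟩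
  smul_mem' := by
    rintro t a ⟨ha, w, hw⟩
    exact ⟨Submodule.smul_mem _ t ha, t • w, fun σ hσ => by
      rw [Pi.smul_apply, hw σ hσ, map_smul, smul_sub]⟩

theorem Lur_le_Z1loc (ρ : Representation k GQ W) (v : Nat.Primes) : Lur ρ v ≤ Z1loc ρ v :=
  fun _ h => h.1

/-- the cocycle relation -/
def IsCocLoc (ρ : Representation k GQ W) (v : Nat.Primes) (c : ↥(decomp v) → W) : Prop :=
  ∀ g h : ↥(decomp v), c (g * h) = c g + ρ g (c h)

theorem isCocLoc_iff (ρ : Representation k GQ W) (v : Nat.Primes) (c : ↥(decomp v) → W) :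
    IsCocLoc ρ v c ↔ c ∈ LinearMap.ker (CFT.d12 (locRep ρ v)) := by
  rw [LinearMap.mem_ker]
  constructor
  · intro h
    funext ⟨g, s⟩
    rw [CFT.d12_apply]
    change ρ g (c s) - c (g * s) + c g = 0
    rw [h g s]
    abel
  · intro h g s
    have h1 := congrFun h (g, s)
    rw [CFT.d12_apply] at h1
    change ρ g (c s) - c (g * s) + c g = 0 at h1
    rw [sub_add_eq_add_sub, sub_eq_zero] at h1
    rw [← h1, add_comm]

theorem IsCocLoc.of_mem {ρ : Representation k GQ W} {v : Nat.Primes} {c : ↥(decomp v) → W}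
    (hc : c ∈ Z1loc ρ v) : IsCocLoc ρ v c :=
  (isCocLoc_iff ρ v c).mpr hc.1

theorem IsCocLoc.one {ρ : Representation k GQ W} {v : Nat.Primes} {c : ↥(decomp v) → W}
    (hc : IsCocLoc ρ v c) : c 1 = 0 := by
  have h := hc 1 1
  rw [mul_one, OneMemClass.coe_one, map_one, Module.End.one_apply] at h
  exact left_eq_add.mp h

theorem isCocLoc_d01 (ρ : Representation k GQ W) (v : Nat.Primes) (w : W) :
    IsCocLoc ρ v (fun σ => ρ σ w - w) := by
  intro g h
  simp only [Subgroup.coe_mul, map_mul, Module.End.mul_apply, map_sub]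
  abel

theorem IsCocLoc.sub {ρ : Representation k GQ W} {v : Nat.Primes} {c c' : ↥(decomp v) → W}
    (hc : IsCocLoc ρ v c) (hc' : IsCocLoc ρ v c') : IsCocLoc ρ v (c - c') := by
  intro g h
  simp only [Pi.sub_apply, hc g h, hc' g h, map_sub]
  abel

/-- needs smoothness of `ρ` (coboundaries are continuous) -/
theorem B1loc_le_Z1loc (ρ : Representation k GQ W) (hρ : CFT.IsSmooth levAll ρ) (v : Nat.Primes) :
    B1loc ρ v ≤ Z1loc ρ v := by
  rintro _ ⟨w, rfl⟩
  refine ⟨(isCocLoc_iff ρ v _).mp (isCocLoc_d01 ρ v w), ?_⟩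
  obtain ⟨U, hU, h⟩ := hρ w
  refine ⟨U.comap (decomp v).subtype, ⟨U, hU, rfl⟩, fun g s hs => ?_⟩
  change ρ ((g * s : ↥(decomp v)) : GQ) w - w = ρ g w - w
  rw [Subgroup.coe_mul, map_mul, Module.End.mul_apply, h (s : GQ) hs]

theorem B1loc_le_Lur (ρ : Representation k GQ W) (hρ : CFT.IsSmooth levAll ρ) (v : Nat.Primes) :
    B1loc ρ v ≤ Lur ρ v := by
  intro c hc
  refine ⟨B1loc_le_Z1loc ρ hρ v hc, ?_⟩
  obtain ⟨w, rfl⟩ := hc
  exact ⟨w, fun σ _ => rfl⟩

theorem IsCocLoc.pow_eq_zero {ρ : Representation k GQ W} {v : Nat.Primes} {c : ↥(decomp v) → W}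
    (hc : IsCocLoc ρ v c) {φ : ↥(decomp v)} (h : c φ = 0) (n : ℕ) : c (φ ^ n) = 0 := by
  induction n with
  | zero => rw [pow_zero]; exact hc.one
  | succ n ih => rw [pow_succ, hc, ih, h, map_zero, add_zero]

/-- [UR-INJ] -/
theorem eq_zero_of_unramified (ρ : Representation k GQ W) (v : Nat.Primes) {φ : GQ}
    (hφ : (primeLocalPlace v).IsFrobeniusAt φ (v : ℕ)) (hφD : φ ∈ decomp v)
    {c : ↥(decomp v) → W} (hc : c ∈ Z1loc ρ v)
    (hI : ∀ σ : ↥(decomp v), (σ : GQ) ∈ inert v → c σ = 0) (hcφ : c ⟨φ, hφD⟩ = 0) : c = 0 := by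
  have hcoc := IsCocLoc.of_mem hc
  obtain ⟨_, ⟨_, ⟨F, hF, -, rfl⟩, rfl⟩, hU⟩ := hc.2
  funext σ
  obtain ⟨n, τ, hτ, h⟩ := exists_frob_pow_mul_inertia v.2 (liesOverPrime_primeLocalPlace v) hφ F σ.2
  let τ' : ↥(decomp v) := ⟨τ, inert_le_decomp v hτ⟩
  let φ' : ↥(decomp v) := ⟨φ, hφD⟩
  have hu : (φ' ^ n * τ')⁻¹ * σ ∈ F.fixingSubgroup.comap (decomp v).subtype := by
    rw [Subgroup.mem_comap, IntermediateField.mem_fixingSubgroup_iff]
    intro x hx
    change ((φ ^ n * τ)⁻¹ * (σ : GQ)) x = x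
    rw [AlgEquiv.mul_apply, h x hx, ← AlgEquiv.mul_apply, inv_mul_cancel]
    rfl
  have h1 : σ = (φ' ^ n * τ') * ((φ' ^ n * τ')⁻¹ * σ) := by rw [mul_inv_cancel_left]
  rw [h1, hU _ _ hu, hcoc, hcoc.pow_eq_zero hcφ, hI τ' hτ, map_zero, add_zero]
  rfl

theorem IsCocLoc.fixed {ρ : Representation k GQ W} {v : Nat.Primes} {c : ↥(decomp v) → W}
    (hc : IsCocLoc ρ v c)
    (hI : ∀ σ : ↥(decomp v), (σ : GQ) ∈ inert v → c σ = 0) (σ : ↥(decomp v)) (i : GQ)
    (hi : i ∈ inert v) : ρ i (c σ) = c σ := by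
  let i' : ↥(decomp v) := ⟨i, inert_le_decomp v hi⟩
  have hj : ((σ⁻¹ * i' * σ : ↥(decomp v)) : GQ) ∈ inert v := by
    have := conj_mem_inertia v.2 (liesOverPrime_primeLocalPlace v) (g := (σ : GQ)⁻¹) (inv_mem σ.2) hi
    rw [inv_inv] at this
    exact this
  have h1 : i' * σ = σ * (σ⁻¹ * i' * σ) := by group
  have h2 := hc i' σ
  rw [h1, hc, hI _ hj, hI i' hi, map_zero, add_zero, zero_add] at h2
  exact h2.symm

/-- [UR-FIX] -/
theorem fixed_of_unramified (ρ : Representation k GQ W) (v : Nat.Primes)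
    {c : ↥(decomp v) → W} (hc : c ∈ Z1loc ρ v)
    (hI : ∀ σ : ↥(decomp v), (σ : GQ) ∈ inert v → c σ = 0) (σ : ↥(decomp v)) (i : GQ)
    (hi : i ∈ inert v) : ρ i (c σ) = c σ :=
  (IsCocLoc.of_mem hc).fixed hI σ i hi

/-- the inertia invariants -/
def invInert (ρ : Representation k GQ W) (v : Nat.Primes) : AddSubgroup W where
  carrier := {w | ∀ i ∈ inert v, ρ i w = w}
  zero_mem' := fun i _ => map_zero _
  add_mem' := fun {a b} ha hb i hi => by rw [map_add, ha i hi, hb i hi]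
  neg_mem' := fun {a} ha i hi => by rw [map_neg, ha i hi]

/-- a canonical representative modulo the inertia invariants -/
noncomputable def repInert (ρ : Representation k GQ W) (v : Nat.Primes) (w : W) : W :=
  Quotient.out (QuotientAddGroup.mk w : W ⧸ invInert ρ v)

theorem repInert_sub_mem (ρ : Representation k GQ W) (v : Nat.Primes) (w : W) :
    repInert ρ v w - w ∈ invInert ρ v := by
  have h : (QuotientAddGroup.mk (repInert ρ v w) : W ⧸ invInert ρ v) = QuotientAddGroup.mk w :=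
    Quotient.out_eq _
  rw [QuotientAddGroup.eq] at h
  have h2 := neg_mem h
  rwa [neg_add, neg_neg, ← sub_eq_add_neg] at h2

theorem repInert_eq (ρ : Representation k GQ W) (v : Nat.Primes) {w w' : W}
    (h : w - w' ∈ invInert ρ v) : repInert ρ v w = repInert ρ v w' := by
  unfold repInert
  congr 1
  rw [QuotientAddGroup.eq]
  have h2 := neg_mem h
  rwa [neg_sub, sub_eq_add_neg, add_comm] at h2

/-- **[UR-CARD]** -/
theorem card_Lur_le [Finite W] (ρ : Representation k GQ W) (v : Nat.Primes) :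
    Finite ↥(Lur ρ v) ∧ Nat.card ↥(Lur ρ v) ≤ Nat.card W := by
  obtain ⟨φ, hφ⟩ := exists_isFrobeniusAt v.2 (liesOverPrime_primeLocalPlace v)
  have hφD := hφ.mem_decompositionSubgroup
  let φ' : ↥(decomp v) := ⟨φ, hφD⟩
  let a : ↥(Lur ρ v) → W := fun c => repInert ρ v c.2.2.choose
  have ha : ∀ (c : ↥(Lur ρ v)) (σ : ↥(decomp v)), (σ : GQ) ∈ inert v →
      c.1 σ = ρ σ (a c) - a c := by
    intro c σ hσ
    rw [c.2.2.choose_spec σ hσ]
    have h := repInert_sub_mem ρ v c.2.2.choose σ hσ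
    rw [map_sub, sub_eq_sub_iff_sub_eq_sub] at h
    exact h.symm
  let t : ↥(Lur ρ v) → W := fun c => c.1 φ' - (ρ φ (a c) - a c)
  have ht : ∀ c, t c ∈ invInert ρ v := by
    intro c i hi
    have h1 : IsCocLoc ρ v (c.1 - fun σ : ↥(decomp v) => ρ σ (a c) - a c) :=
      (IsCocLoc.of_mem c.2.1).sub (isCocLoc_d01 ρ v (a c))
    exact h1.fixed (fun σ hσ => by rw [Pi.sub_apply, ha c σ hσ, sub_self]) φ' i hi
  let f : ↥(Lur ρ v) → W := fun c => a c + t c
  have hf : Function.Injective f := by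
    intro c c' h
    have h1 : a c - a c' ∈ invInert ρ v := by
      have h2 : a c - a c' = t c' - t c := by
        rw [sub_eq_sub_iff_add_eq_add, add_comm (t c')]
        exact h
      rw [h2]
      exact sub_mem (ht c') (ht c)
    have h3 : ∀ c, repInert ρ v (a c) = a c := fun c => repInert_eq ρ v (repInert_sub_mem ρ v _)
    have h4 : a c = a c' := by rw [← h3 c, ← h3 c', repInert_eq ρ v h1]
    have h5 : t c = t c' := by
      have : a c + t c = a c' + t c' := h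
      rw [h4] at this
      exact add_left_cancel this
    have h6 : c.1 φ' = c'.1 φ' := by
      have : c.1 φ' - (ρ φ (a c) - a c) = c'.1 φ' - (ρ φ (a c') - a c') := h5
      rw [h4] at this
      exact sub_left_injective this
    have h7 : c.1 - c'.1 = 0 := by
      apply eq_zero_of_unramified ρ v hφ hφD (sub_mem c.2.1 c'.2.1)
      · intro σ hσ
        rw [Pi.sub_apply, ha c σ hσ, ha c' σ hσ, h4, sub_self]
      · rw [Pi.sub_apply, sub_eq_zero]
        exact h6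
    exact Subtype.ext (sub_eq_zero.mp h7)
  exact ⟨Finite.of_injective f hf, Nat.card_le_card_of_injective f hf⟩

end Fermat.Agent.S56
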