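import Fermat.Agent.S56.Loc.Ur
import Fermat.Agent.CFT.Global.GC3.Setup
import Fermat.Agent.CFT.LS.Inst
import Fermat.Agent.S14.PartA.Cyclo
import Fermat.Agent.Common.PlaceBridgeHens
import Fermat.Agent.Common.PlaceBridgeVal

/-!
# S56 / [H1MU] : `#Z¹(D_p, k(χ)) ≤ #k³` and the ramification of the mod `p` cyclotomic character at `p ≥ 3`.

Kummer theory over the henselisation `K_h = ℚbar^{D_p}`: `K_hˣ = p^ℤ (1+p)^ℤ (K_hˣ)^p`.
-/

set_option autoImplicit false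
set_option linter.unusedVariables false
set_option linter.unusedSectionVars false

open ExtCitation

namespace Fermat.Agent.S56.H1Mu

open CFT (levS levAll decomp Z1 B1 Qb chiRep)
open Fermat.Agent.Bridge

section Arith

variable {p : ℕ} {A : ValuationSubring Qb}

theorem val_p_lt_one (hA : A.LiesOverPrime p) : A.valuation (p : Qb) < 1 :=
  A.mem_nonunits_iff.mp hA

theorem val_p_ne_zero (hp : p.Prime) : A.valuation (p : Qb) ≠ 0 :=
  (A.valuation.ne_zero_iff).mpr (by exact_mod_cast hp.ne_zero)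

theorem val_int_le_one (a : ℤ) : A.valuation (a : Qb) ≤ 1 :=
  (A.valuation_le_one_iff _).mpr (intCast_mem A a)

theorem val_one_add_p (hA : A.LiesOverPrime p) : A.valuation (1 + (p : Qb)) = 1 := by
  rw [A.valuation.map_add_eq_of_lt_left (by rw [map_one]; exact val_p_lt_one hA), map_one]

/-- `v(p)^2 < v(ζ - 1)^p` for `p` odd. -/
theorem val_p_sq_lt (hp : p.Prime) (hp2 : p ≠ 2) (hA : A.LiesOverPrime p) {ζ : Qb}
    (hζ : IsPrimitiveRoot ζ p) : A.valuation (p : Qb) ^ 2 < A.valuation (ζ - 1) ^ p := by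
  have h1 := valuation_natCast_eq_pow (A := A) hp hζ
  set w := A.valuation (ζ - 1) with hw
  have hp0 := val_p_ne_zero (A := A) hp
  have hlt := val_p_lt_one hA
  have hw0 : w ≠ 0 := by
    intro h
    rw [h1, h, zero_pow (by have := hp.two_le; omega)] at hp0
    exact hp0 rfl
  have hw1 : w < 1 := by
    by_contra hcon
    rw [h1] at hlt
    exact absurd hlt (not_lt.mpr (one_le_pow₀ (not_lt.mp hcon)))
  have h3 : 3 ≤ p := by have := hp.two_le; omega
  have h2 : A.valuation (p : Qb) < w := by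
    rw [h1]
    calc w ^ (p - 1) < w ^ 1 :=
          pow_lt_pow_right_of_lt_one₀ (zero_lt_iff.mpr hw0) hw1 (by omega)
      _ = w := pow_one w
  have h4 : p = (p - 1) + 1 := by omega
  calc A.valuation (p : Qb) ^ 2 = A.valuation (p : Qb) * A.valuation (p : Qb) := sq _
    _ < A.valuation (p : Qb) * w := mul_lt_mul_of_pos_left h2 (zero_lt_iff.mpr hp0)
    _ = w ^ p := by rw [h1, ← pow_succ, ← h4]

/-- `x` is `p^n (1+p)^m` times a `p`-th power of the henselisation. -/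
def Good (p : ℕ) (A : ValuationSubring Qb) (x : Qb) : Prop :=
  ∃ (n m : ℤ) (z : Qb), z ≠ 0 ∧ (∀ σ ∈ A.decompositionSubgroup ℚ, σ z = z) ∧
    x = (p : Qb) ^ n * (1 + (p : Qb)) ^ m * z ^ p

theorem one_add_p_ne_zero (hA : A.LiesOverPrime p) : (1 + (p : Qb)) ≠ 0 := by
  intro h
  have := val_one_add_p hA
  rw [h, map_zero] at this
  exact zero_ne_one this

theorem Good.mul (hp : p.Prime) (hA : A.LiesOverPrime p) {x y : Qb} (hx : Good p A x)
    (hy : Good p A y) : Good p A (x * y) := by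
  obtain ⟨n, m, z, hz, hzf, rfl⟩ := hx
  obtain ⟨n', m', z', hz', hzf', rfl⟩ := hy
  have hp0 : (p : Qb) ≠ 0 := by exact_mod_cast hp.ne_zero
  refine ⟨n + n', m + m', z * z', mul_ne_zero hz hz', fun σ hσ => by
    rw [map_mul, hzf σ hσ, hzf' σ hσ], ?_⟩
  rw [zpow_add₀ hp0, zpow_add₀ (one_add_p_ne_zero hA), mul_pow]
  ring

theorem Good.inv (hp : p.Prime) (hA : A.LiesOverPrime p) {x : Qb} (hx : Good p A x) :
    Good p A x⁻¹ := by
  obtain ⟨n, m, z, hz, hzf, rfl⟩ := hx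
  refine ⟨-n, -m, z⁻¹, inv_ne_zero hz, fun σ hσ => by rw [map_inv₀, hzf σ hσ], ?_⟩
  rw [zpow_neg, zpow_neg, inv_pow, mul_inv, mul_inv]

theorem good_p : Good p A (p : Qb) :=
  ⟨1, 0, 1, one_ne_zero, fun σ _ => map_one σ, by simp⟩

theorem good_pow_p {z : Qb} (hz : z ≠ 0) (hzf : ∀ σ ∈ A.decompositionSubgroup ℚ, σ z = z) :
    Good p A (z ^ p) := ⟨0, 0, z, hz, hzf, by simp⟩

theorem good_one_add_p_zpow (m : ℤ) : Good p A ((1 + (p : Qb)) ^ m) :=
  ⟨0, m, 1, one_ne_zero, fun σ _ => map_one σ, by simp⟩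

/-- elements close to `1`. -/
theorem good_of_close (hp : p.Prime) (hp2 : p ≠ 2) (hA : A.LiesOverPrime p) {t : Qb}
    (htf : ∀ σ ∈ A.decompositionSubgroup ℚ, σ t = t)
    (ht : A.valuation (t - 1) ≤ A.valuation (p : Qb) ^ 2) : Good p A t := by
  have : NeZero p := ⟨hp.ne_zero⟩
  obtain ⟨ζ, hζ⟩ := HasEnoughRootsOfUnity.exists_primitiveRoot Qb p
  obtain ⟨y, hyp, -, hy⟩ := exists_root_fixed (A := A) hp hζ (ht.trans_lt (val_p_sq_lt hp hp2 hA hζ))
  have ht0 : t ≠ 0 := by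
    rintro rfl
    rw [zero_sub, Valuation.map_neg, map_one] at ht
    have h1 : A.valuation (p : Qb) ^ 2 < 1 := pow_lt_one₀ zero_le (val_p_lt_one hA) two_ne_zero
    exact absurd ht (not_le.mpr h1)
  have hy0 : y ≠ 0 := by
    rintro rfl
    rw [zero_pow hp.ne_zero] at hyp
    exact ht0 hyp.symm
  rw [← hyp]
  exact good_pow_p hy0 fun σ hσ => hy σ hσ (htf σ hσ)

theorem one_add_pow_eq (p : ℤ) (m : ℕ) : ∃ r : ℤ, (1 + p) ^ m = 1 + m * p + p ^ 2 * r := by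
  induction m with
  | zero => exact ⟨0, by simp⟩
  | succ m ih =>
    obtain ⟨r, hr⟩ := ih
    refine ⟨r + m + p * r, ?_⟩
    rw [pow_succ, hr]
    push_cast
    ring

/-- integers prime to `p`. -/
theorem good_int (hp : p.Prime) (hp2 : p ≠ 2) (hA : A.LiesOverPrime p) {a : ℤ}
    (ha : ¬ (p : ℤ) ∣ a) : Good p A (a : Qb) := by
  have hcop : IsCoprime a (p : ℤ) :=
    ((Nat.prime_iff_prime_int.mp hp).coprime_iff_not_dvd.mpr ha).symm
  have h1 := Int.ModEq.pow_card_sub_one_eq_one hp hcop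
  obtain ⟨s, hs⟩ : ∃ s : ℤ, a ^ (p - 1) = 1 + p * s := by
    obtain ⟨s, hs⟩ := h1.symm.dvd
    exact ⟨s, by linarith⟩
  have hp0' : (0 : ℤ) < p := by exact_mod_cast hp.pos
  set m : ℕ := (s % p).toNat with hm
  have hm' : (m : ℤ) = s % p := Int.toNat_of_nonneg (Int.emod_nonneg _ hp0'.ne')
  obtain ⟨r, hr⟩ := one_add_pow_eq (p : ℤ) m
  have h2 : a ^ (p - 1) = (1 + (p : ℤ)) ^ m + (p : ℤ) ^ 2 * (s / p - r) := by
    rw [hs, hr, hm']
    have := Int.emod_add_mul_ediv s p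
    linear_combination (-(p : ℤ)) * this
  have ha0 : (a : Qb) ≠ 0 := by
    have : a ≠ 0 := by rintro rfl; exact ha (dvd_zero _)
    exact_mod_cast this
  have h1p := one_add_p_ne_zero hA
  set t : Qb := (a : Qb) ^ (p - 1) / (1 + (p : Qb)) ^ m with ht
  have h3 : t - 1 = (p : Qb) ^ 2 * ((s / p - r : ℤ) : Qb) / (1 + (p : Qb)) ^ m := by
    have h4 : (a : Qb) ^ (p - 1) = (1 + (p : Qb)) ^ m + (p : Qb) ^ 2 * ((s / p - r : ℤ) : Qb) := by
      exact_mod_cast congrArg (Int.cast : ℤ → Qb) h2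
    rw [ht, h4]
    field_simp
    ring
  have hgt : Good p A t := by
    refine good_of_close hp hp2 hA (fun σ _ => by simp [ht]) ?_
    rw [h3, map_div₀, map_mul, map_pow, map_pow, val_one_add_p hA, one_pow, div_one]
    exact mul_le_of_le_one_right' (val_int_le_one _)
  have h5 : (a : Qb) = (a : Qb) ^ p * (t⁻¹ * ((1 + (p : Qb)) ^ (m : ℤ))⁻¹) := by
    have h6 : p = (p - 1) + 1 := by have := hp.pos; omega
    have h7 : (a : Qb) ^ p = (a : Qb) ^ (p - 1) * a := by rw [← pow_succ, ← h6]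
    rw [ht, zpow_natCast, h7]
    field_simp
  rw [h5]
  exact (good_pow_p ha0 fun σ _ => by simp).mul hp hA
    ((hgt.inv hp hA).mul hp hA ((good_one_add_p_zpow _).inv hp hA))

theorem good_pow_nat (hp : p.Prime) (hA : A.LiesOverPrime p) {x : Qb} (hx : Good p A x) (j : ℕ) :
    Good p A (x ^ j) := by
  induction j with
  | zero => exact ⟨0, 0, 1, one_ne_zero, fun σ _ => map_one σ, by simp⟩
  | succ j ih => rw [pow_succ]; exact ih.mul hp hA hx

theorem good_int' (hp : p.Prime) (hp2 : p ≠ 2) (hA : A.LiesOverPrime p) {a : ℤ} (ha : a ≠ 0) :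
    Good p A (a : Qb) := by
  have hfin : FiniteMultiplicity (p : ℤ) a :=
    Int.finiteMultiplicity_iff.mpr ⟨by simpa using hp.ne_one, ha⟩
  obtain ⟨c, hc, hpc⟩ := hfin.exists_eq_pow_mul_and_not_dvd
  rw [hc]
  push_cast
  exact (good_pow_nat hp hA good_p _).mul hp hA (good_int hp hp2 hA hpc)

theorem good_rat (hp : p.Prime) (hp2 : p ≠ 2) (hA : A.LiesOverPrime p) {q : ℚ} (hq : q ≠ 0) :
    Good p A (algebraMap ℚ Qb q) := by
  have h1 : algebraMap ℚ Qb q = (q.num : Qb) * ((q.den : ℤ) : Qb)⁻¹ := by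
    conv_lhs => rw [← Rat.num_div_den q]
    rw [map_div₀, div_eq_mul_inv]
    simp
  rw [h1]
  exact (good_int' hp hp2 hA (Rat.num_ne_zero.mpr hq)).mul hp hA
    ((good_int' hp hp2 hA (by exact_mod_cast q.den_nz)).inv hp hA)

/-- **every nonzero element of the henselisation is `p^n (1+p)^m z^p`.** -/
theorem good_of_fixed (hp : p.Prime) (hp2 : p ≠ 2) (hA : A.LiesOverPrime p) {x : Qb} (hx0 : x ≠ 0)
    (hx : ∀ σ ∈ A.decompositionSubgroup ℚ, σ x = x) : Good p A x := by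
  obtain ⟨c, hc0, -, h2⟩ := exists_close_of_fixed (K := ℚ) (φ := algebraMap ℚ Qb) hp hA hx0
    (fun σ hσ => hx σ hσ.1) 2
  have hc0' : algebraMap ℚ Qb c ≠ 0 := by rw [Ne, map_eq_zero]; exact hc0
  have h3 : x = x / algebraMap ℚ Qb c * algebraMap ℚ Qb c := by field_simp
  rw [h3]
  refine (good_of_close hp hp2 hA (fun σ hσ => ?_) h2).mul hp hA (good_rat hp hp2 hA hc0)
  rw [map_div₀, hx σ hσ, AlgEquiv.commutes]

end Arith

section Kummer

open CFT.Global S14.PartA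

variable {p : ℕ} [Fact p.Prime]

theorem zpow_inj {ζ : Qb} (hζ : IsPrimitiveRoot ζ p) {a b : ℤ} (h : ζ ^ a = ζ ^ b) :
    (a : ZMod p) = b := by
  have hζ0 : ζ ≠ 0 := hζ.ne_zero (Fact.out : p.Prime).ne_zero
  have h1 : ζ ^ (a - b) = 1 := by rw [zpow_sub₀ hζ0, h, div_self (zpow_ne_zero _ hζ0)]
  have h2 := (hζ.zpow_eq_one_iff_dvd _).mp h1
  exact ((ZMod.intCast_eq_intCast_iff_dvd_sub b a p).mpr h2).symm

theorem exists_kummer {ζ : Qb} (hζ : IsPrimitiveRoot ζ p) (D : Subgroup GQ) {π : Qb} (hπ0 : π ≠ 0)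
    (hπ : ∀ σ ∈ D, σ (π ^ p) = π ^ p) :
    ∃ e : D → ZMod p, ∀ σ : D, (σ : GQ) π = ζ ^ (e σ).val * π := by
  have hp : p.Prime := Fact.out
  have key : ∀ σ : D, ∃ i : ZMod p, (σ : GQ) π = ζ ^ i.val * π := by
    intro σ
    have h1 : ((σ : GQ) π / π) ^ p = 1 := by
      rw [div_pow, ← map_pow, hπ σ σ.2, div_self (pow_ne_zero _ hπ0)]
    obtain ⟨i, hi, hζi⟩ := hζ.eq_pow_of_pow_eq_one h1
    refine ⟨(i : ZMod p), ?_⟩
    rw [ZMod.val_natCast_of_lt hi, hζi, div_mul_cancel₀ _ hπ0]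
  choose e he using key
  exact ⟨e, he⟩

theorem exists_h90 {ζ : Qb} (hζ : IsPrimitiveRoot ζ p) (D : Subgroup GQ) (c : D → ZMod p)
    (hc : ∀ σ τ : D, c (σ * τ) = ((cycloChar p (σ : GQ) : (ZMod p)ˣ) : ZMod p) * c τ + c σ)
    (hlc : (levAll.comap D.subtype).LC1 c) :
    ∃ y : Qb, y ≠ 0 ∧ ∀ σ : D, (σ : GQ) y = ζ ^ (c σ).val * y := by
  have hp : p.Prime := Fact.out
  have : NeZero p := ⟨hp.ne_zero⟩
  have hζ0 : ζ ≠ 0 := hζ.ne_zero hp.ne_zero
  let E : ZMod p → Additive Qbˣ := fun i => ofQb (ζ ^ i.val) (pow_ne_zero _ hζ0)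
  have hmem : (E ∘ c) ∈ Z1 (levAll.comap D.subtype) (rhoQ.comp D.subtype) := by
    refine ⟨LinearMap.mem_ker.2 (funext fun g => ?_), hlc.comp E⟩
    apply toQb_injective
    rw [CFT.d12_apply]
    simp only [Function.comp_apply, toQb_add, toQb_sub, Pi.zero_apply, toQb_zero]
    change (g.1 : GQ) (ζ ^ (c g.2).val) / ζ ^ (c (g.1 * g.2)).val * ζ ^ (c g.1).val = 1
    rw [map_pow, cycloChar_spec hζ.pow_eq_one, ← pow_mul, div_mul_eq_mul_div, ← pow_add,
      div_eq_one_iff_eq (pow_ne_zero _ hζ0)]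
    apply pow_eq_pow_of_natCast_eq hζ.pow_eq_one
    push_cast
    simp only [ZMod.natCast_val, ZMod.cast_id', id_eq]
    rw [hc]
  obtain ⟨u, hu⟩ := h90_all D.subtype hmem
  refine ⟨toQb u, toQb_ne_zero u, fun σ => ?_⟩
  have h1 := congrArg toQb (congrFun hu σ)
  rw [CFT.d01_apply, toQb_sub] at h1
  change (σ : GQ) (toQb u) / toQb u = ζ ^ (c σ).val at h1
  rw [← h1, div_mul_cancel₀ _ (toQb_ne_zero u)]


/-- **Kummer theory over the henselisation**: every `μ_p`-valued cocycle on the decomposition group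
is a combination of three fixed ones. -/
theorem exists_three (hp2 : p ≠ 2) {A : ValuationSubring Qb} (hA : A.LiesOverPrime p) :
    ∃ e₀ e₁ e₂ : ↥(A.decompositionSubgroup ℚ) → ZMod p,
      ∀ c : ↥(A.decompositionSubgroup ℚ) → ZMod p,
      (∀ σ τ : ↥(A.decompositionSubgroup ℚ),
        c (σ * τ) = ((cycloChar p (σ : GQ) : (ZMod p)ˣ) : ZMod p) * c τ + c σ) →
      (levAll.comap (A.decompositionSubgroup ℚ).subtype).LC1 c →
      ∃ a n m : ZMod p, ∀ σ, c σ = a * e₀ σ + n * e₁ σ + m * e₂ σ := by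
  have hp : p.Prime := Fact.out
  have : NeZero p := ⟨hp.ne_zero⟩
  obtain ⟨ζ, hζ⟩ := HasEnoughRootsOfUnity.exists_primitiveRoot Qb p
  have hζ0 : ζ ≠ 0 := hζ.ne_zero hp.ne_zero
  have hp0 : (p : Qb) ≠ 0 := by exact_mod_cast hp.ne_zero
  have h1p := one_add_p_ne_zero hA
  obtain ⟨π₁, hπ₁⟩ := IsAlgClosed.exists_pow_nat_eq (p : Qb) hp.pos
  obtain ⟨π₂, hπ₂⟩ := IsAlgClosed.exists_pow_nat_eq (1 + (p : Qb)) hp.pos
  have hπ₁0 : π₁ ≠ 0 := by
    rintro rfl
    rw [zero_pow hp.ne_zero] at hπ₁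
    exact hp0 hπ₁.symm
  have hπ₂0 : π₂ ≠ 0 := by
    rintro rfl
    rw [zero_pow hp.ne_zero] at hπ₂
    exact h1p hπ₂.symm
  set D := A.decompositionSubgroup ℚ with hD
  obtain ⟨e₀, he₀⟩ := exists_kummer hζ D hζ0 (fun σ _ => by rw [hζ.pow_eq_one, map_one])
  obtain ⟨e₁, he₁⟩ := exists_kummer hζ D hπ₁0 (fun σ _ => by rw [hπ₁, map_natCast])
  obtain ⟨e₂, he₂⟩ := exists_kummer hζ D hπ₂0 (fun σ _ => by rw [hπ₂, map_add, map_one, map_natCast])
  refine ⟨e₀, e₁, e₂, fun c hc hlc => ?_⟩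
  obtain ⟨y, hy0, hy⟩ := exists_h90 hζ D c hc hlc
  have hyp : ∀ σ ∈ D, σ (y ^ p) = y ^ p := by
    intro σ hσ
    rw [map_pow, hy ⟨σ, hσ⟩, mul_pow, ← pow_mul, mul_comm _ p, pow_mul, hζ.pow_eq_one, one_pow,
      one_mul]
  obtain ⟨n, m, z, hz0, hzf, hyz⟩ := good_of_fixed hp hp2 hA (pow_ne_zero p hy0) hyp
  set w : Qb := π₁ ^ n * π₂ ^ m * z with hw
  have hw0 : w ≠ 0 := mul_ne_zero (mul_ne_zero (zpow_ne_zero _ hπ₁0) (zpow_ne_zero _ hπ₂0)) hz0
  have hwp : w ^ p = y ^ p := by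
    rw [hyz, hw, mul_pow, mul_pow, ← zpow_natCast (π₁ ^ n), ← zpow_natCast (π₂ ^ m), ← zpow_mul,
      ← zpow_mul, mul_comm n, mul_comm m, zpow_mul, zpow_mul, zpow_natCast, zpow_natCast, hπ₁, hπ₂]
  have h1 : (y / w) ^ p = 1 := by rw [div_pow, hwp, div_self (pow_ne_zero _ hy0)]
  obtain ⟨a, -, ha⟩ := hζ.eq_pow_of_pow_eq_one h1
  have hyw : y = ζ ^ a * w := by rw [ha, div_mul_cancel₀ _ hw0]
  refine ⟨(a : ZMod p), (n : ZMod p), (m : ZMod p), fun σ => ?_⟩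
  have h2 : (σ : GQ) y = ζ ^ ((a : ℤ) * ((e₀ σ).val : ℤ) + n * ((e₁ σ).val : ℤ)
      + m * ((e₂ σ).val : ℤ)) * y := by
    rw [hyw, hw, map_mul, map_mul, map_mul, map_pow, map_zpow₀, map_zpow₀, he₀, he₁, he₂,
      hzf σ σ.2, zpow_add₀ hζ0, zpow_add₀ hζ0, mul_pow, mul_zpow, mul_zpow, mul_comm (a : ℤ),
      mul_comm n, mul_comm m, zpow_mul, zpow_mul, zpow_mul, zpow_natCast, zpow_natCast,
      zpow_natCast, zpow_natCast]
    ring
  have h3 : ζ ^ (((c σ).val : ℕ) : ℤ) = ζ ^ ((a : ℤ) * ((e₀ σ).val : ℤ) + n * ((e₁ σ).val : ℤ)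
      + m * ((e₂ σ).val : ℤ)) := by
    have := (hy σ).symm.trans h2
    rw [zpow_natCast]
    exact mul_right_cancel₀ hy0 this
  have h4 := zpow_inj hζ h3
  push_cast at h4
  simpa only [ZMod.natCast_val, ZMod.cast_id', id_eq] using h4

end Kummer

section Field

open S14.PartA

variable {p : ℕ} [Fact p.Prime] {k : Type} [Field k] [Finite k] [CharP k p]

theorem chiK_coe (σ : GQ) :
    ((chiK p k σ : kˣ) : k) = ZMod.castHom (dvd_refl p) k ((cycloChar p σ : (ZMod p)ˣ) : ZMod p) :=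
  rfl

theorem exists_three_k (hp2 : p ≠ 2) :
    ∃ E₀ E₁ E₂ : ↥(decomp (pPrime p)) → k, ∀ c ∈ Z1loc (chiRep (chiK p k)) (pPrime p),
      ∃ α β γ : k, ∀ σ, c σ = α * E₀ σ + β * E₁ σ + γ * E₂ σ := by
  have hA : (primeLocalPlace (pPrime p)).LiesOverPrime p :=
    CFT.LS.liesOverPrime_primeLocalPlace (pPrime p)
  obtain ⟨e₀, e₁, e₂, he⟩ := exists_three hp2 hA
  let _ : Algebra (ZMod p) k := ZMod.algebra k p
  let b := Module.finBasis (ZMod p) k
  refine ⟨fun σ => algebraMap (ZMod p) k (e₀ σ), fun σ => algebraMap (ZMod p) k (e₁ σ),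
    fun σ => algebraMap (ZMod p) k (e₂ σ), fun c hc => ?_⟩
  have hc1 : ∀ σ τ : ↥(decomp (pPrime p)),
      c (σ * τ) = ((cycloChar p (σ : GQ) : (ZMod p)ˣ) : ZMod p) • c τ + c σ := by
    intro σ τ
    have h1 := congrFun (LinearMap.mem_ker.1 hc.1) (σ, τ)
    rw [CFT.d12_apply] at h1
    have h2 : (locRep (chiRep (chiK p k)) (pPrime p)) σ (c τ)
        = ((cycloChar p (σ : GQ) : (ZMod p)ˣ) : ZMod p) • c τ := by
      rw [Algebra.smul_def]
      change chiRep (chiK p k) (σ : GQ) (c τ) = _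
      simp only [chiRep, Representation.twist_apply_apply]
      rfl
    simp only [h2, Pi.zero_apply] at h1
    linear_combination -h1
  have hc2 : (levAll.comap (decomp (pPrime p)).subtype).LC1 c := hc.2
  have key : ∀ j, ∃ a n m : ZMod p, ∀ σ, b.repr (c σ) j = a * e₀ σ + n * e₁ σ + m * e₂ σ := by
    intro j
    refine he (fun σ => b.repr (c σ) j) (fun σ τ => ?_) (hc2.comp fun x => b.repr x j)
    simp only [hc1, map_add, map_smul, Finsupp.add_apply, Finsupp.smul_apply, smul_eq_mul]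
  choose a n m hanm using key
  refine ⟨∑ j, a j • b j, ∑ j, n j • b j, ∑ j, m j • b j, fun σ => ?_⟩
  conv_lhs => rw [← b.sum_repr (c σ)]
  simp only [hanm, Finset.sum_mul, ← Finset.sum_add_distrib]
  refine Finset.sum_congr rfl fun j _ => ?_
  simp only [Algebra.smul_def, map_add, map_mul]
  ring

/-- **[H1MU]** -/
theorem card_Z1loc_chi_le (hp2 : p ≠ 2) :
    Finite ↥(Z1loc (chiRep (chiK p k)) (pPrime p)) ∧
      Nat.card ↥(Z1loc (chiRep (chiK p k)) (pPrime p)) ≤ Nat.card k ^ 3 := by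
  obtain ⟨E₀, E₁, E₂, h⟩ := exists_three_k (k := k) hp2
  choose α β γ hαβγ using fun c : ↥(Z1loc (chiRep (chiK p k)) (pPrime p)) => h c.1 c.2
  let F : ↥(Z1loc (chiRep (chiK p k)) (pPrime p)) → k × k × k := fun c => (α c, β c, γ c)
  have hF : Function.Injective F := by
    intro c c' hcc
    simp only [F, Prod.mk.injEq] at hcc
    apply Subtype.ext
    funext σ
    rw [hαβγ c σ, hαβγ c' σ, hcc.1, hcc.2.1, hcc.2.2]
  refine ⟨Finite.of_injective F hF, ?_⟩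
  calc Nat.card ↥(Z1loc (chiRep (chiK p k)) (pPrime p)) ≤ Nat.card (k × k × k) :=
        Nat.card_le_card_of_injective F hF
    _ = Nat.card k ^ 3 := by rw [Nat.card_prod, Nat.card_prod]; ring

/-- the cyclotomic character is ramified at `p ≥ 3` -/
theorem chiK_inert_ne_one (hp2 : p ≠ 2) : ∃ σ ∈ inert (pPrime p), chiK p k σ ≠ 1 := by
  by_contra hcon
  push Not at hcon
  have hp : p.Prime := Fact.out
  have : NeZero p := ⟨hp.ne_zero⟩
  have hA : (primeLocalPlace (pPrime p)).LiesOverPrime p :=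
    CFT.LS.liesOverPrime_primeLocalPlace (pPrime p)
  set A := primeLocalPlace (pPrime p) with hAdef
  have h1 : ∀ σ ∈ inert (pPrime p), cycloChar p σ = 1 := by
    intro σ hσ
    have h2 := congrArg Units.val (hcon σ hσ)
    rw [chiK_coe, Units.val_one] at h2
    apply Units.ext
    exact (ZMod.castHom (dvd_refl p) k).injective (by rw [h2, Units.val_one, map_one])
  let K := CyclotomicField p ℚ
  have : IsCyclotomicExtension {p} ℚ K := CyclotomicField.isCyclotomicExtension p ℚ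
  let φ : K →+* Qb := (IsAlgClosed.lift : K →ₐ[ℚ] Qb).toRingHom
  have : IsGalois ℚ K := IsCyclotomicExtension.isGalois {p} ℚ K
  have h2 : ∀ σ ∈ A.inertiaSubgroupIn ℚ, ∀ x : K, σ (φ x) = φ x :=
    fun σ hσ => (cycloChar_eq_one_iff_mem_fixer φ).mp (h1 σ hσ)
  have hζK := IsCyclotomicExtension.zeta_spec p ℚ K
  have hζ : IsPrimitiveRoot (φ (IsCyclotomicExtension.zeta p ℚ K)) p :=
    hζK.map_of_injective φ.injective
  obtain ⟨n, hn⟩ := exists_zpow_of_inertia_fixes hp hA h2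
    (x := IsCyclotomicExtension.zeta p ℚ K - 1) (sub_ne_zero.mpr (hζK.ne_one hp.one_lt))
  have h3 := valuation_natCast_eq_pow (A := A) hp hζ
  rw [map_sub, map_one] at hn
  set w := A.valuation (φ (IsCyclotomicExtension.zeta p ℚ K) - 1) with hw
  have hp0 := val_p_ne_zero (A := A) hp
  have hlt := val_p_lt_one hA
  have hw0 : w ≠ 0 := by
    intro h
    rw [h3, h, zero_pow (by have := hp.two_le; omega)] at hp0
    exact hp0 rfl
  have hw1 : w < 1 := by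
    by_contra hcon
    rw [h3] at hlt
    exact absurd hlt (not_lt.mpr (one_le_pow₀ (not_lt.mp hcon)))
  have h4 : w ^ (1 : ℤ) = w ^ (((p - 1 : ℕ) : ℤ) * n) := by
    rw [zpow_one, zpow_mul, zpow_natCast, ← h3, ← hn]
  have h5 := zpow_right_injective₀ (zero_lt_iff.mpr hw0) hw1.ne h4
  have h6 : ((p - 1 : ℕ) : ℤ) ∣ 1 := ⟨n, h5⟩
  have h7 : (p - 1 : ℕ) ∣ 1 := by exact_mod_cast h6
  have h8 := Nat.dvd_one.mp h7
  have := hp.two_le
  omega

end Field

end Fermat.Agent.S56.H1Mu
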