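import Fermat.Agent.S56.Loc.Min
import Fermat.Agent.CFT.F.Cup

/-!
# S56 / [ORD-CARD] : the count (4) of `Loc/Ord.lean`.
-/

set_option autoImplicit false

open ExtCitation

namespace Fermat.Agent.S56

open CFT (levS levAll decomp Z1 B1 Qb chiRep d01 d12)

section Mat

variable {k : Type} [Field k]

/-- `M ↦ g₀⁻¹ M g₀` -/
def cjI (g₀ : (M2 k)ˣ) (M : M2 k) : M2 k := ((g₀⁻¹ : (M2 k)ˣ) : M2 k) * M * (g₀ : M2 k)

/-- `M ↦ g₀ M g₀⁻¹` -/
def cjO (g₀ : (M2 k)ˣ) (M : M2 k) : M2 k := (g₀ : M2 k) * M * ((g₀⁻¹ : (M2 k)ˣ) : M2 k)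

lemma cjO_cjI (g₀ : (M2 k)ˣ) (M : M2 k) : cjO g₀ (cjI g₀ M) = M := by
  unfold cjO cjI
  simp only [mul_assoc, Units.mul_inv, mul_one, Units.mul_inv_cancel_left]

lemma cjI_cjO (g₀ : (M2 k)ˣ) (M : M2 k) : cjI g₀ (cjO g₀ M) = M := by
  unfold cjO cjI
  simp only [mul_assoc, Units.inv_mul, mul_one, Units.inv_mul_cancel_left]

lemma cjO_mul (g₀ : (M2 k)ˣ) (M N : M2 k) : cjO g₀ (M * N) = cjO g₀ M * cjO g₀ N := by
  unfold cjO
  simp only [mul_assoc, Units.inv_mul_cancel_left]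

lemma cjO_add (g₀ : (M2 k)ˣ) (M N : M2 k) : cjO g₀ (M + N) = cjO g₀ M + cjO g₀ N := by
  unfold cjO
  rw [mul_add, add_mul]

lemma cjO_sub (g₀ : (M2 k)ˣ) (M N : M2 k) : cjO g₀ (M - N) = cjO g₀ M - cjO g₀ N := by
  unfold cjO
  rw [mul_sub, sub_mul]

lemma cjO_smul (g₀ : (M2 k)ˣ) (t : k) (M : M2 k) : cjO g₀ (t • M) = t • cjO g₀ M := by
  unfold cjO
  rw [Matrix.mul_smul, Matrix.smul_mul]

lemma cjO_one (g₀ : (M2 k)ˣ) : cjO g₀ 1 = 1 := by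
  unfold cjO
  rw [mul_one, Units.mul_inv]

lemma trace_cjI (g₀ : (M2 k)ˣ) (M : M2 k) : (cjI g₀ M).trace = M.trace := by
  unfold cjI
  rw [Matrix.trace_mul_comm, ← mul_assoc, Units.mul_inv, one_mul]

lemma trace_cjO (g₀ : (M2 k)ˣ) (M : M2 k) : (cjO g₀ M).trace = M.trace := by
  unfold cjO
  rw [Matrix.trace_mul_comm, ← mul_assoc, Units.inv_mul, one_mul]

lemma cjO_injective (g₀ : (M2 k)ˣ) : Function.Injective (cjO g₀) := fun M N h => by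
  rw [← cjI_cjO g₀ M, h, cjI_cjO]

lemma single01_eq : (Matrix.single 0 1 1 : M2 k) = !![0, 1; 0, 0] := by
  ext i j
  fin_cases i <;> fin_cases j <;> simp [Matrix.single]

lemma single10_eq : (Matrix.single 1 0 1 : M2 k) = !![0, 0; 1, 0] := by
  ext i j
  fin_cases i <;> fin_cases j <;> simp [Matrix.single]

lemma tri_inv {x b z x' b' z' : k} (h : !![x, b; 0, z] * !![x', b'; 0, z'] = (1 : M2 k)) :
    x * x' = 1 ∧ z * z' = 1 := by
  have h00 := congrFun (congrFun h 0) 0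
  have h11 := congrFun (congrFun h 1) 1
  simp [Matrix.mul_apply, Fin.sum_univ_two] at h00 h11
  exact ⟨h00, h11⟩

lemma tri_conj_single {x b z x' b' z' : k} (t : k) :
    !![x, b; 0, z] * (t • (Matrix.single 0 1 1 : M2 k)) * !![x', b'; 0, z'] =
      (x * z' * t) • (Matrix.single 0 1 1 : M2 k) := by
  rw [single01_eq]
  ext i j
  fin_cases i <;> fin_cases j <;> simp [Matrix.mul_apply, Fin.sum_univ_two]
  ring

lemma tri_conj_sub {x b z x' b' z' : k} (hx : x * x' = 1) (hz : z * z' = 1) (a t : k) :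
    !![x, b; 0, z] * !![a, t; 0, -a] * !![x', b'; 0, z'] - !![a, t; 0, -a] =
      (x * a * b' + (x * t - b * a) * z' - t) • (Matrix.single 0 1 1 : M2 k) := by
  rw [single01_eq]
  ext i j
  fin_cases i <;> fin_cases j
  · simp
    linear_combination a * hx
  · simp
    exact Or.inl (by ring)
  · simp
  · simp
    linear_combination (-a) * hz

end Mat

variable {k : Type} [Field k]

/-- cochains with values in the line `g₀⁻¹ (0 *; 0 0) g₀` -/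
def W2val (g₀ : (M2 k)ˣ) (v : Nat.Primes) : Submodule k (↥(decomp v) → sl2 k) where
  carrier := {c | ∀ σ, ∃ t : k, ((c σ : sl2 k) : M2 k) =
      ((g₀⁻¹ : (M2 k)ˣ) : M2 k) * (t • Matrix.single 0 1 1) * (g₀ : M2 k)}
  add_mem' := by
    intro a b ha hb σ
    obtain ⟨t, ht⟩ := ha σ
    obtain ⟨t', ht'⟩ := hb σ
    exact ⟨t + t', by simp [ht, ht', add_smul, mul_add, add_mul]⟩
  zero_mem' := fun σ => ⟨0, by simp⟩
  smul_mem' := by
    intro s a ha σ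
    obtain ⟨t, ht⟩ := ha σ
    exact ⟨s * t, by
      rw [Pi.smul_apply, Submodule.coe_smul, ht, mul_smul, Matrix.mul_smul, Matrix.smul_mul,
        Matrix.mul_smul, Matrix.smul_mul, Matrix.mul_smul, Matrix.smul_mul]⟩

lemma mem_W2val {g₀ : (M2 k)ˣ} {v : Nat.Primes} {c : ↥(decomp v) → sl2 k} :
    c ∈ W2val g₀ v ↔ ∀ σ, ∃ t : k, cjO g₀ (c σ : M2 k) = t • Matrix.single 0 1 1 := by
  constructor
  · intro h σ
    obtain ⟨t, ht⟩ := h σ
    exact ⟨t, by rw [ht]; exact cjO_cjI g₀ _⟩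
  · intro h σ
    obtain ⟨t, ht⟩ := h σ
    exact ⟨t, by rw [← ht]; exact (cjI_cjO g₀ _).symm⟩

/-- the upper right coefficient -/
def tauMap (g₀ : (M2 k)ˣ) (v : Nat.Primes) : (↥(decomp v) → sl2 k) →ₗ[k] (↥(decomp v) → k) where
  toFun c σ := cjO g₀ (c σ : M2 k) 0 1
  map_add' a b := by
    funext σ
    simp [cjO_add]
  map_smul' t a := by
    funext σ
    simp [cjO_smul]

lemma tauMap_apply (g₀ : (M2 k)ˣ) (v : Nat.Primes) (c : ↥(decomp v) → sl2 k) (σ : ↥(decomp v)) :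
    tauMap g₀ v c σ = cjO g₀ (c σ : M2 k) 0 1 := rfl

lemma cjO_eq_of_mem_W2val {g₀ : (M2 k)ˣ} {v : Nat.Primes} {c : ↥(decomp v) → sl2 k}
    (hc : c ∈ W2val g₀ v) (σ : ↥(decomp v)) :
    cjO g₀ (c σ : M2 k) = tauMap g₀ v c σ • Matrix.single 0 1 1 := by
  obtain ⟨t, ht⟩ := mem_W2val.1 hc σ
  rw [tauMap_apply, ht]
  simp

section Count

variable (χ : GQ →* kˣ) (rbar : GQ →* M2 k) (g₀ : (M2 k)ˣ) (v : Nat.Primes)

/-- the hypothesis of triangularity -/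
def IsTri : Prop := ∀ σ ∈ decomp v, ∃ z b : k, z * z = 1 ∧
  (g₀ : M2 k) * rbar σ * ((g₀⁻¹ : (M2 k)ˣ) : M2 k) = !![(χ σ : k) * z, b; 0, z]

variable {χ rbar g₀ v}

/-- the shape of `g₀ (ρ̄ σ) g₀⁻¹` and of its inverse -/
lemma IsTri.shape (h : IsTri χ rbar g₀ v) (σ : ↥(decomp v)) :
    ∃ x b z x' b' z' : k, cjO g₀ (rbar σ) = !![x, b; 0, z] ∧
      cjO g₀ (rbar (σ : GQ)⁻¹) = !![x', b'; 0, z'] ∧ x * x' = 1 ∧ z * z' = 1 ∧
      x * z' = (χ σ : k) := by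
  obtain ⟨z, b, hz, h1⟩ := h σ σ.2
  obtain ⟨z', b', hz', h2⟩ := h (σ : GQ)⁻¹ ((decomp v).inv_mem σ.2)
  have h3 : cjO g₀ (rbar σ) * cjO g₀ (rbar (σ : GQ)⁻¹) = 1 := by
    rw [← cjO_mul, rbar_mul_inv, cjO_one]
  have h1' : cjO g₀ (rbar σ) = !![(χ σ : k) * z, b; 0, z] := h1
  have h2' : cjO g₀ (rbar (σ : GQ)⁻¹) = !![(χ (σ : GQ)⁻¹ : k) * z', b'; 0, z'] := h2
  rw [h1', h2'] at h3
  obtain ⟨e1, e2⟩ := tri_inv h3
  exact ⟨_, b, z, _, b', z', h1', h2', e1, e2, by rw [mul_assoc, e2, mul_one]⟩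

lemma IsTri.cjO_ad (σ : GQ) (m : M2 k) :
    cjO g₀ (rbar σ * m * rbar σ⁻¹) = cjO g₀ (rbar σ) * cjO g₀ m * cjO g₀ (rbar σ⁻¹) := by
  rw [cjO_mul, cjO_mul]

/-- `τ` maps `W₂`-valued cocycles to cocycles for `χ` -/
lemma IsTri.tauMap_mem (h : IsTri χ rbar g₀ v) {c : ↥(decomp v) → sl2 k}
    (hc : c ∈ Z1loc (adRep rbar) v ⊓ W2val g₀ v) : tauMap g₀ v c ∈ Z1loc (chiRep χ) v := by
  obtain ⟨⟨hc1, hc2⟩, hcW⟩ := hc
  refine ⟨LinearMap.mem_ker.2 ?_, ?_⟩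
  · funext g
    have h1 : adRep rbar g.1 (c g.2) - c (g.1 * g.2) + c g.1 = 0 :=
      congrFun (LinearMap.mem_ker.1 hc1) g
    have h2 := congrArg (fun w : sl2 k => cjO g₀ (w : M2 k) 0 1) h1
    simp only [Submodule.coe_add, Submodule.coe_sub, adRep_apply_coe, cjO_add, cjO_sub,
      Matrix.add_apply, Matrix.sub_apply, Submodule.coe_zero] at h2
    obtain ⟨x, b, z, x', b', z', e1, e2, -, -, e5⟩ := h.shape g.1
    rw [IsTri.cjO_ad, e1, e2, cjO_eq_of_mem_W2val hcW g.2, tri_conj_single, e5] at h2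
    show chiRep χ (g.1 : GQ) (tauMap g₀ v c g.2) - tauMap g₀ v c (g.1 * g.2) + tauMap g₀ v c g.1 = 0
    rw [CFT.chiRep_apply, tauMap_apply g₀ v c (g.1 * g.2), tauMap_apply g₀ v c g.1]
    have h3 : cjO g₀ (0 : M2 k) 0 1 = 0 := by simp [cjO]
    rw [h3] at h2
    simpa using h2
  · exact CFT.Levels.LC1.comp hc2 (fun w : sl2 k => cjO g₀ (w : M2 k) 0 1)

lemma tauMap_injOn {c : ↥(decomp v) → sl2 k} (hc : c ∈ W2val g₀ v) (h0 : tauMap g₀ v c = 0) :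
    c = 0 := by
  funext σ
  apply Subtype.ext
  apply cjO_injective g₀
  rw [cjO_eq_of_mem_W2val hc σ, h0]
  simp [cjO]

/-- the complementary vector `g₀⁻¹ E₂₁ g₀` -/
def nVec (g₀ : (M2 k)ˣ) : sl2 k :=
  ⟨cjI g₀ (Matrix.single 1 0 1), by
    rw [mem_sl2, trace_cjI, single10_eq]
    simp [Matrix.trace_fin_two]⟩

lemma IsTri.d01_mem (h : IsTri χ rbar g₀ v) (w : sl2 k) (hw : cjO g₀ (w : M2 k) 1 0 = 0) :
    d01 (locRep (adRep rbar) v) w ∈ W2val g₀ v := by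
  rw [mem_W2val]
  intro σ
  obtain ⟨x, b, z, x', b', z', e1, e2, e3, e4, -⟩ := h.shape σ
  have htr : (cjO g₀ (w : M2 k)).trace = 0 := by rw [trace_cjO]; exact (mem_sl2 _).1 w.2
  have hform : cjO g₀ (w : M2 k) =
      !![cjO g₀ (w : M2 k) 0 0, cjO g₀ (w : M2 k) 0 1; 0, -(cjO g₀ (w : M2 k) 0 0)] := by
    rw [Matrix.trace_fin_two] at htr
    ext i j
    fin_cases i <;> fin_cases j <;> simp
    · exact hw
    · linear_combination htr
  have : ((d01 (locRep (adRep rbar) v) w σ : sl2 k) : M2 k) =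
      rbar σ * (w : M2 k) * rbar (σ : GQ)⁻¹ - (w : M2 k) := rfl
  rw [this, cjO_sub, IsTri.cjO_ad, e1, e2, hform]
  exact ⟨_, tri_conj_sub e3 e4 _ _⟩

theorem card_sup_le [Finite k] (h : IsTri χ rbar g₀ v)
    (hB : B1loc (adRep rbar) v ≤ Z1loc (adRep rbar) v)
    (hH : Finite ↥(Z1loc (chiRep χ) v) ∧ Nat.card ↥(Z1loc (chiRep χ) v) ≤ Nat.card k ^ 3) :
    Finite ↥((Z1loc (adRep rbar) v ⊓ W2val g₀ v) ⊔ B1loc (adRep rbar) v) ∧
      Nat.card ↥((Z1loc (adRep rbar) v ⊓ W2val g₀ v) ⊔ B1loc (adRep rbar) v) ≤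
        Nat.card k ^ 4 := by
  obtain ⟨hfin, hcard⟩ := hH
  set ZZ := Z1loc (adRep rbar) v ⊓ W2val g₀ v with hZZ
  let T : ZZ → ↥(Z1loc (chiRep χ) v) := fun c => ⟨tauMap g₀ v c, h.tauMap_mem c.2⟩
  have hT : Function.Injective T := by
    intro c c' hcc
    have h1 : tauMap g₀ v (c : ↥(decomp v) → sl2 k) = tauMap g₀ v c' := congrArg Subtype.val hcc
    have h2 : tauMap g₀ v ((c : ↥(decomp v) → sl2 k) - c') = 0 := by rw [map_sub, h1, sub_self]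
    have h3 := tauMap_injOn (ZZ.sub_mem c.2 c'.2).2 h2
    exact Subtype.ext (sub_eq_zero.1 h3)
  have hZfin : Finite ZZ := Finite.of_injective T hT
  have hZcard : Nat.card ZZ ≤ Nat.card k ^ 3 := (Nat.card_le_card_of_injective T hT).trans hcard
  let F : ZZ × k → ↥(ZZ ⊔ B1loc (adRep rbar) v) := fun x =>
    ⟨(x.1 : ↥(decomp v) → sl2 k) + x.2 • d01 (locRep (adRep rbar) v) (nVec g₀),
      Submodule.add_mem _ (Submodule.mem_sup_left x.1.2)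
        (Submodule.smul_mem _ _ (Submodule.mem_sup_right ⟨_, rfl⟩))⟩
  have hF : Function.Surjective F := by
    rintro ⟨y, hy⟩
    obtain ⟨c, hc, b, ⟨w, rfl⟩, rfl⟩ := Submodule.mem_sup.1 hy
    set s : k := cjO g₀ (w : M2 k) 1 0 with hs
    have hw1 : cjO g₀ ((w - s • nVec g₀ : sl2 k) : M2 k) 1 0 = 0 := by
      have : ((w - s • nVec g₀ : sl2 k) : M2 k) = (w : M2 k) - s • cjI g₀ (Matrix.single 1 0 1) := rfl
      rw [this, cjO_sub, cjO_smul, cjO_cjI, single10_eq]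
      simp [hs]
    have hmem : d01 (locRep (adRep rbar) v) (w - s • nVec g₀) ∈ ZZ :=
      ⟨hB ⟨_, rfl⟩, h.d01_mem _ hw1⟩
    refine ⟨(⟨c + d01 (locRep (adRep rbar) v) (w - s • nVec g₀), ZZ.add_mem hc hmem⟩, s), ?_⟩
    apply Subtype.ext
    show c + d01 (locRep (adRep rbar) v) (w - s • nVec g₀) +
      s • d01 (locRep (adRep rbar) v) (nVec g₀) = c + d01 (locRep (adRep rbar) v) w
    rw [map_sub, map_smul]
    abel
  refine ⟨Finite.of_surjective F hF, (Nat.card_le_card_of_surjective F hF).trans ?_⟩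
  rw [Nat.card_prod, pow_succ]
  exact Nat.mul_le_mul_right _ hZcard

end Count

end Fermat.Agent.S56
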