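import Fermat.Agent.S56.Loc.OrdCard
import Fermat.Agent.GAL.CycloChar
import Fermat.Agent.CFT.K.BridgeCyclo

/-!
# S56 / [ORD-NF] : steps (1)-(3) of `Loc/Ord.lean`.

`exists_tri_model` : matrix form of `IsStrictOrdinaryAt` over `k[ε]`; `exists_ordPkg` : normalisation by a
constant matrix, `coc r₁ = c₂ + ∂ m` with `c₂` valued in the line; `OrdPkg.transfer` : independence of the line.
-/

set_option autoImplicit false

open ExtCitation

namespace Fermat.Agent.S56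

open CFT (levS levAll decomp Z1 B1 Qb chiRep d01 d12)

section Gen

lemma det_eq_of_conj {A : Type} [CommRing A] (N : (M2 A)ˣ) {X Y : M2 A}
    (h : (N : M2 A) * X = Y * (N : M2 A)) : X.det = Y.det := by
  have hu : IsUnit (N : M2 A).det := (Matrix.isUnit_iff_isUnit_det _).1 N.isUnit
  have h1 := congrArg Matrix.det h
  rw [Matrix.det_mul, Matrix.det_mul, mul_comm Y.det] at h1
  exact hu.mul_left_cancel h1

variable {k : Type} [Field k]

lemma natCast_dual (n : ℕ) : ((n : ℕ) : DualNumber k) = TrivSqZeroExt.inl (n : k) :=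
  (map_natCast (TrivSqZeroExt.inlHom k k) n).symm

/-- `χ z² = χ` in `k[ε]` forces `z` to be a constant of square one -/
lemma dual_sq_eq_one (h2 : (2 : k) ≠ 0) {c : k} (hc : c ≠ 0) {z : DualNumber k}
    (h : TrivSqZeroExt.inl c * z * z = TrivSqZeroExt.inl c) :
    z.fst * z.fst = 1 ∧ z = TrivSqZeroExt.inl z.fst := by
  have h1 := congrArg TrivSqZeroExt.fst h
  have h3 := congrArg TrivSqZeroExt.snd h
  simp only [TrivSqZeroExt.fst_mul, TrivSqZeroExt.fst_inl, TrivSqZeroExt.snd_mul,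
    TrivSqZeroExt.snd_inl, smul_eq_mul, MulOpposite.smul_eq_mul_unop, MulOpposite.unop_op,
    zero_mul, add_zero] at h1 h3
  have e1 : z.fst * z.fst = 1 := by
    apply mul_left_cancel₀ hc
    rw [mul_one, ← mul_assoc]; exact h1
  have hz0 : z.fst ≠ 0 := by
    intro h0
    rw [h0, mul_zero] at e1
    exact zero_ne_one e1
  have e2 : z.snd = 0 := by
    have : (2 * c * z.fst) * z.snd = 0 := by linear_combination h3
    exact (mul_eq_zero.1 this).resolve_left (mul_ne_zero (mul_ne_zero h2 hc) hz0)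
  exact ⟨e1, TrivSqZeroExt.ext rfl (by simpa using e2)⟩

end Gen

variable {p : ℕ} [Fact p.Prime] {k : Type} [Field k] [CharP k p]

lemma chiK_coe (σ : GQ) : (chiK p k σ : k) = (((cycloChar p σ : ZMod p).val : ℕ) : k) := by
  have : NeZero p := ⟨(Fact.out : p.Prime).ne_zero⟩
  rw [ZMod.natCast_val]
  rfl

/-- the matrix form of the strict ordinary condition -/
theorem exists_tri_model (h2 : (2 : k) ≠ 0) (rbar : GQ →* M2 k)
    (hdet : ∀ σ, (rbar σ).det = (chiK p k σ : k))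
    (ρ₁ : GaloisRepAdic (DualNumber k)) (r₁ : GQ →* M2 (DualNumber k))
    (hm : S53.HasMatrix ρ₁ r₁)
    (hd : ∀ σ, (r₁ σ).det = TrivSqZeroExt.inl (rbar σ).det) (ho : ρ₁.IsStrictOrdinaryAt p) :
    ∃ (r' : GQ →* M2 (DualNumber k)) (M : (M2 (DualNumber k))ˣ),
      (∀ σ, (M : M2 (DualNumber k)) * r₁ σ = r' σ * (M : M2 (DualNumber k))) ∧
      (∀ σ ∈ decomp (pPrime p), ∃ (z : k) (β : DualNumber k), z * z = 1 ∧
         r' σ = !![TrivSqZeroExt.inl ((chiK p k σ : k) * z), β; 0, TrivSqZeroExt.inl z]) ∧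
      (∀ σ ∈ inert (pPrime p), r' σ 1 1 = 1) := by
  have hNZ : NeZero p := ⟨(Fact.out : p.Prime).ne_zero⟩
  obtain ⟨L, ⟨b', hL⟩, -, hI, hx⟩ := ho.2 (primeLocalPlace (pPrime p))
    (liesOverPrime_primeLocalPlace (pPrime p))
  obtain ⟨M, hM⟩ := hm.exists_conj (S53.hasMatrix_toMat ρ₁ b')
  have hb0 : b' 0 ∈ L := hL ▸ Submodule.mem_span_singleton_self _
  refine ⟨S53.toMat ρ₁ b', M, hM, ?_, ?_⟩
  · intro σ hσ
    obtain ⟨x, z, h1, h2', h3⟩ := hx σ hσ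
    have e0 : ρ₁.ρ σ (b' 0) = x • b' 0 := h1 _ hb0
    obtain ⟨c, hc⟩ : ∃ c, c • b' 0 = ρ₁.ρ σ (b' 1) - z • b' 1 :=
      Submodule.mem_span_singleton.1 (hL ▸ h2' (b' 1))
    have e1 : ρ₁.ρ σ (b' 1) = c • b' 0 + z • b' 1 := by rw [hc]; abel
    have hmat : S53.toMat ρ₁ b' σ = !![x, c; 0, z] := by
      refine Matrix.ext fun i j => ?_
      rw [S53.toMat_apply, LinearMap.toMatrix_apply]
      fin_cases j
      · simp only [Fin.zero_eta, e0]
        fin_cases i <;> simp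
      · simp only [Fin.mk_one, e1]
        fin_cases i <;> simp
    -- `x = χ z`
    have hxz : x = TrivSqZeroExt.inl (chiK p k σ : k) * z := by
      have h4 := h3 1 ((cycloChar p σ : ZMod p).val) (by
        intro μ hμ
        rw [pow_one] at hμ
        exact Fermat.Agent.GAL.cycloChar_spec p σ hμ)
      have h5 : (((p ^ 1 : ℕ) : ℕ) : DualNumber k) = 0 := by
        rw [pow_one, natCast_dual, CharP.cast_eq_zero k p, TrivSqZeroExt.inl_zero]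
      rw [h5, Ideal.span_singleton_zero, Ideal.mem_bot, sub_eq_zero, natCast_dual, ← chiK_coe] at h4
      exact h4
    have hdd : (r₁ σ).det = (S53.toMat ρ₁ b' σ).det := det_eq_of_conj M (hM σ)
    rw [hd σ, hdet σ, hmat, Matrix.det_fin_two_of, mul_zero, sub_zero, hxz] at hdd
    obtain ⟨hz1, hz2⟩ := dual_sq_eq_one h2 (chiK p k σ).ne_zero hdd.symm
    refine ⟨z.fst, c, hz1, ?_⟩
    rw [hmat, hxz, TrivSqZeroExt.inl_mul, ← hz2]
  · intro σ hσ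
    obtain ⟨c, hc⟩ : ∃ c, c • b' 0 = ρ₁.ρ σ (b' 1) - b' 1 :=
      Submodule.mem_span_singleton.1 (hL ▸ hI σ hσ (b' 1))
    have e1 : ρ₁.ρ σ (b' 1) = c • b' 0 + b' 1 := by rw [hc]; abel
    rw [S53.toMat_apply, LinearMap.toMatrix_apply, e1]
    simp


/-- constant matrices -/
noncomputable abbrev cst (g : (M2 k)ˣ) : (M2 (DualNumber k))ˣ :=
  Units.map (TrivSqZeroExt.inlHom k k).mapMatrix.toMonoidHom g

omit [CharP k p] in
lemma cst_coe (g : (M2 k)ˣ) :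
    ((cst g : (M2 (DualNumber k))ˣ) : M2 (DualNumber k)) =
      (g : M2 k).map (TrivSqZeroExt.inl : k → DualNumber k) := rfl

/-- reduction of invertible matrices -/
noncomputable abbrev redU (M : (M2 (DualNumber k))ˣ) : (M2 k)ˣ :=
  Units.map (TrivSqZeroExt.fstHom k k k).toRingHom.mapMatrix.toMonoidHom M

omit [CharP k p] in
lemma redU_coe (M : (M2 (DualNumber k))ˣ) :
    ((redU M : (M2 k)ˣ) : M2 k) = (M : M2 (DualNumber k)).map TrivSqZeroExt.fst := rfl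

/-- what a strictly ordinary deformation gives -/
structure OrdPkg (χ : GQ →* kˣ) (rbar : GQ →* M2 k) (c₁ : GQ → sl2 k) (M₀ : (M2 k)ˣ)
    (v : Nat.Primes) : Prop where
  tri : IsTri χ rbar M₀ v
  one : ∀ σ ∈ inert v, cjO M₀ (rbar σ) 1 1 = 1
  dec : ∃ (c₂ : GQ → sl2 k) (m : sl2 k), c₂ ∈ Z1 levAll (adRep rbar) ∧
    c₁ = c₂ + d01 (adRep rbar) m ∧
    ∀ σ ∈ decomp v, ∃ t : k, cjO M₀ (c₂ σ : M2 k) = t • Matrix.single 0 1 1

theorem exists_ordPkg (h2 : (2 : k) ≠ 0) (rbar : GQ →* M2 k)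
    (hdet : ∀ σ, (rbar σ).det = (chiK p k σ : k))
    (ρ₁ : GaloisRepAdic (DualNumber k)) (r₁ : GQ →* M2 (DualNumber k))
    (hm : S53.HasMatrix ρ₁ r₁) (hl : IsLift rbar r₁)
    (hd : ∀ σ, (r₁ σ).det = TrivSqZeroExt.inl (rbar σ).det) (ho : ρ₁.IsStrictOrdinaryAt p) :
    ∃ M₀ : (M2 k)ˣ, OrdPkg (chiK p k) rbar (coc h2 r₁) M₀ (pPrime p) := by
  obtain ⟨r', M, hM, hD, hI⟩ := exists_tri_model h2 rbar hdet ρ₁ r₁ hm hd ho
  set M₀ : (M2 k)ˣ := redU M with hM₀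
  -- reduction of `r'`
  have hred : ∀ σ, cjO M₀ (rbar σ) = (r' σ).map TrivSqZeroExt.fst := by
    intro σ
    have h1 := congrArg (fun X : M2 (DualNumber k) => X.map TrivSqZeroExt.fst) (hM σ)
    simp only [map_fst_mul, hl σ] at h1
    unfold cjO
    rw [hM₀, redU_coe, h1, mul_assoc, ← redU_coe, Units.mul_inv, mul_one]
  -- the normalised representation
  set r₂ : GQ →* M2 (DualNumber k) := S53.conjRep (cst M₀⁻¹) r' with hr₂
  set N : (M2 (DualNumber k))ˣ := cst M₀⁻¹ * M with hN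
  have hNfst : (N : M2 (DualNumber k)).map TrivSqZeroExt.fst = 1 := by
    rw [hN, Units.val_mul, map_fst_mul, cst_coe, map_fst_map_inl, ← redU_coe, ← hM₀, Units.inv_mul]
  have hc : ∀ σ, (N : M2 (DualNumber k)) * r₁ σ = r₂ σ * (N : M2 (DualNumber k)) := by
    intro σ
    rw [hN, hr₂, S53.conjRep_apply, Units.val_mul, mul_assoc, hM σ]
    simp only [mul_assoc, Units.inv_mul_cancel_left]
  have hl₂ : IsLift rbar r₂ := by
    intro σ
    have h1 := congrArg (fun X : M2 (DualNumber k) => X.map TrivSqZeroExt.fst) (hc σ)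
    simp only [map_fst_mul, hNfst, one_mul, mul_one, hl σ] at h1
    exact h1.symm
  have hd₂ : ∀ σ, (r₂ σ).det = TrivSqZeroExt.inl (rbar σ).det := fun σ => by
    rw [← hd σ]; exact (det_eq_of_conj N (hc σ)).symm
  have hcoc := coc_conj h2 hl (N : M2 (DualNumber k)) hNfst hc
  refine ⟨M₀, ⟨?_, ?_, coc h2 r₂, toSl2 h2 ((N : M2 (DualNumber k)).map TrivSqZeroExt.snd),
    ?_, ?_, ?_⟩⟩
  · intro σ hσ
    obtain ⟨z, β, hz, hr⟩ := hD σ hσ
    refine ⟨z, β.fst, hz, ?_⟩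
    have := hred σ
    unfold cjO at this
    rw [this, hr]
    ext i j
    fin_cases i <;> fin_cases j <;> simp
  · intro σ hσ
    rw [hred σ, Matrix.map_apply, hI σ hσ]
    rfl
  · obtain ⟨L, hL, hL1⟩ := (matCont_dualNumber_iff r₁).1 hm.matCont
    obtain ⟨U, hU, hle⟩ := CFT.exists_levAll_le L
    refine coc_mem_Z1 h2 levAll hl₂ ⟨U, hU, fun s hs => ?_⟩
    have h1 : r₁ s = 1 := hL1 s fun x hx =>
      (IntermediateField.mem_fixingSubgroup_iff _ _).1 (hle hs) x hx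
    have h3 := hc s
    rw [h1, mul_one] at h3
    have h4 : r₂ s * (N : M2 (DualNumber k)) * ((N⁻¹ : (M2 (DualNumber k))ˣ) : M2 (DualNumber k)) = 1 := by
      rw [← h3, Units.mul_inv]
    rwa [mul_assoc, Units.mul_inv, mul_one] at h4
  · rw [hcoc]; abel
  · intro σ hσ
    obtain ⟨z, β, hz, hr⟩ := hD σ hσ
    obtain ⟨z', β', hz', hr'⟩ := hD σ⁻¹ ((decomp (pPrime p)).inv_mem hσ)
    refine ⟨β.snd * z', ?_⟩
    rw [coc_coe_of_det h2 hl₂ hd₂ σ, hr₂, cocM_conj_const, inv_inv]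
    have h5 : cjO M₀ (((M₀⁻¹ : (M2 k)ˣ) : M2 k) * cocM r' σ * (M₀ : M2 k)) = cocM r' σ :=
      cjO_cjI M₀ _
    rw [h5, cocM, hr, hr', single01_eq]
    ext i j
    fin_cases i <;> fin_cases j <;> simp [Matrix.mul_apply, Fin.sum_univ_two]


section Uniq

omit [Fact p.Prime] [CharP k p]

lemma lower_zero_aux {U : M2 k} {c b b' : k} (hc : c ≠ 1)
    (h1 : U * !![c, b; 0, 1] = !![c, b'; 0, 1] * U) : U 1 0 = 0 := by
  have h2 := congrFun (congrFun h1 1) 0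
  simp only [Matrix.mul_apply, Fin.sum_univ_two, Matrix.of_apply, Matrix.cons_val_zero,
    Matrix.cons_val_one, Matrix.cons_val', Matrix.cons_val_fin_one, mul_zero, add_zero, zero_mul,
    zero_add, one_mul] at h2
  have h3 : U 1 0 * (c - 1) = 0 := by linear_combination h2
  exact (mul_eq_zero.1 h3).resolve_right (sub_ne_zero.2 hc)

lemma lower_zero {g g' : (M2 k)ˣ} {R : M2 k} {c b b' : k} (hc : c ≠ 1)
    (h : cjO g R = !![c, b; 0, 1]) (h' : cjO g' R = !![c, b'; 0, 1]) :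
    ((g' : M2 k) * ((g⁻¹ : (M2 k)ˣ) : M2 k)) 1 0 = 0 := by
  apply lower_zero_aux hc (b := b) (b' := b')
  rw [← h, ← h']
  unfold cjO
  simp only [mul_assoc, Units.inv_mul_cancel_left]

lemma OrdPkg.shape_inert {χ : GQ →* kˣ} {rbar : GQ →* M2 k} {c₁ : GQ → sl2 k} {M₀ : (M2 k)ˣ}
    {v : Nat.Primes} (P : OrdPkg χ rbar c₁ M₀ v) {σ : GQ} (hσ : σ ∈ inert v) :
    ∃ b : k, cjO M₀ (rbar σ) = !![(χ σ : k), b; 0, 1] := by
  obtain ⟨z, b, -, h⟩ := P.tri σ (inert_le_decomp v hσ)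
  have h' : cjO M₀ (rbar σ) = !![(χ σ : k) * z, b; 0, z] := h
  have h1 := P.one σ hσ
  rw [h'] at h1
  have hz : z = 1 := by simpa using h1
  exact ⟨b, by rw [h', hz, mul_one]⟩

/-- two packages define the same line -/
lemma OrdPkg.transfer {χ : GQ →* kˣ} {rbar : GQ →* M2 k} {c₀ c₁ : GQ → sl2 k} {g₀ M₀ : (M2 k)ˣ}
    {v : Nat.Primes} (P₀ : OrdPkg χ rbar c₀ g₀ v) (P : OrdPkg χ rbar c₁ M₀ v)
    (hram : ∃ σ ∈ inert v, χ σ ≠ 1) {X : M2 k} {t : k}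
    (hX : cjO M₀ X = t • Matrix.single 0 1 1) :
    ∃ t' : k, cjO g₀ X = t' • Matrix.single 0 1 1 := by
  obtain ⟨σ, hσ, hχ⟩ := hram
  have hχ' : (χ σ : k) ≠ 1 := fun h => hχ (Units.ext h)
  obtain ⟨b, hb⟩ := P₀.shape_inert hσ
  obtain ⟨b', hb'⟩ := P.shape_inert hσ
  have hU := lower_zero hχ' hb hb'
  have hU' := lower_zero hχ' hb' hb
  have h1 : cjO g₀ X = ((g₀ : M2 k) * ((M₀⁻¹ : (M2 k)ˣ) : M2 k)) * cjO M₀ X *
      ((M₀ : M2 k) * ((g₀⁻¹ : (M2 k)ˣ) : M2 k)) := by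
    unfold cjO
    simp only [mul_assoc, Units.inv_mul_cancel_left]
  rw [h1, hX, Matrix.eta_fin_two ((g₀ : M2 k) * ((M₀⁻¹ : (M2 k)ˣ) : M2 k)),
    Matrix.eta_fin_two ((M₀ : M2 k) * ((g₀⁻¹ : (M2 k)ˣ) : M2 k)), hU, hU']
  exact ⟨_, tri_conj_single t⟩

theorem isSmooth_adRep (rbar : GQ →* M2 k) (hcont : GaloisFactorsThroughFiniteLevel rbar) :
    CFT.IsSmooth levAll (adRep rbar) := by
  obtain ⟨L, hL, h⟩ := hcont
  obtain ⟨U, hU, hle⟩ := CFT.exists_levAll_le L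
  intro w
  refine ⟨U, hU, fun s hs => ?_⟩
  have h1 : ∀ s ∈ U, rbar s = 1 := fun s hs => h s fun x hx =>
    (IntermediateField.mem_fixingSubgroup_iff _ _).1 (hle hs) x hx
  apply Subtype.ext
  rw [adRep_apply_coe, h1 s hs, h1 s⁻¹ (U.inv_mem hs), one_mul, mul_one]

end Uniq

/-- (1)-(3) of `Loc/Ord.lean` -/
theorem exists_ord_normal_form_aux (h2 : (2 : k) ≠ 0) (rbar : GQ →* M2 k)
    (hdet : ∀ σ, (rbar σ).det = (chiK p k σ : k))
    (hram : ∃ σ ∈ inert (pPrime p), chiK p k σ ≠ 1)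
    (hex : ∃ (ρ₁ : GaloisRepAdic (DualNumber k)) (r₁ : GQ →* M2 (DualNumber k)),
        S53.HasMatrix ρ₁ r₁ ∧ IsLift rbar r₁ ∧
        (∀ σ, (r₁ σ).det = TrivSqZeroExt.inl (rbar σ).det) ∧ ρ₁.IsStrictOrdinaryAt p) :
    ∃ g₀ : (M2 k)ˣ, IsTri (chiK p k) rbar g₀ (pPrime p) ∧
      ∀ (ρ₁ : GaloisRepAdic (DualNumber k)) (r₁ : GQ →* M2 (DualNumber k)),
        S53.HasMatrix ρ₁ r₁ → IsLift rbar r₁ →
        (∀ σ, (r₁ σ).det = TrivSqZeroExt.inl (rbar σ).det) → ρ₁.IsStrictOrdinaryAt p →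
        resLoc k (pPrime p) (coc h2 r₁) ∈
          (Z1loc (adRep rbar) (pPrime p) ⊓ W2val g₀ (pPrime p)) ⊔ B1loc (adRep rbar) (pPrime p) := by
  obtain ⟨ρ₀, r₀, hm₀, hl₀, hd₀, ho₀⟩ := hex
  obtain ⟨g₀, P₀⟩ := exists_ordPkg h2 rbar hdet ρ₀ r₀ hm₀ hl₀ hd₀ ho₀
  refine ⟨g₀, P₀.tri, fun ρ₁ r₁ hm hl hd ho => ?_⟩
  obtain ⟨M₀, P⟩ := exists_ordPkg h2 rbar hdet ρ₁ r₁ hm hl hd ho
  obtain ⟨c₂, m, hc₂, hcc, hW⟩ := P.dec
  rw [hcc, map_add]
  refine Submodule.add_mem_sup ⟨resLoc_mem_Z1loc' _ hc₂ _, ?_⟩ (resLoc_mem_B1loc _ ⟨m, rfl⟩ _)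
  refine mem_W2val.2 fun σ => ?_
  obtain ⟨t, ht⟩ := hW σ σ.2
  exact P₀.transfer P hram ht

end Fermat.Agent.S56
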