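import Fermat.Agent.S56.Loc.Min
import Fermat.Agent.S56.Loc.H1Mu
import Fermat.Agent.S56.Loc.OrdCard
import Fermat.Agent.S56.Loc.OrdNF

/-!
# S56 / [LOC-ORD] : the strict ordinary local condition at `p`.

`D = D_p`, `I = I_p`, `χ = chiK p k`, `det rbar = χ`.  `ρ₁` over `k[ε]`, strictly ordinary with line `L₁` (free direct summand), `det r₁ = χ` (constant).
 (1) on `D`: `ρ₁ σ = x` on `L₁`, `= z` on `V₁/L₁`, `x = a z` whenever `σ = (·)^a` on `μ_{p^n}`, all `n` (`span {p^n} = 0` in `k[ε]`): `x = χ(σ) z`; `det = x z = χ z²`, so `z² = 1`, so `z = ± 1 ∈ k` (`z = z₀ + ε z₁`, `2 z₀ z₁ = 0`).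
     So the diagonal characters of `r₁|_D` are the CONSTANT characters `χ z̄`, `z̄`.
 (2) `L̄ := L₁ mod ε` is a `D`-stable line of `k²` containing `(σ - 1) k²`, `σ ∈ I`; `rbar (I) ≠ 1` since `det rbar = χ` is ramified at `p` (`p ≥ 3`; `chiK_inert_ne_one`).  So `L̄ = ∑_{σ ∈ I} (σ-1) k²` does NOT depend on `ρ₁`.
 (3) fix `g₀ ∈ GL₂(k)` with `g₀ L̄ = k e₁`; `W₂ := g₀⁻¹ (0 *; 0 0) g₀ ⊆ W₁ := g₀⁻¹ (a *; 0 -a) g₀ ⊆ W`.  `L₁ = k[ε] (v̄ + ε v')`: there is `m` with `(1 + ε m) L₁ = k[ε] ⊗ L̄`; replacing `r₁` by its conjugate changes `coc` by a coboundary (`coc_conj`).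
     Then `g₀ r₁ g₀⁻¹ |_D = (χ z̄, b̄ + ε b₁; 0, z̄)`, so `coc r₁ σ ∈ W₂` for `σ ∈ D`.      Hence `res (coc r₁) ∈ Lord := Z¹(D, W₂) + B¹(D, W)`.
 (4) COUNT.  `D` acts on `W₂` by `χ`: `Z¹(D, W₂) ≅ Z¹(D, k(χ))`, `≤ #k³` elements by [H1MU].  `∂ : W → B¹(D,W)`; `∂ W₁ ⊆ Z¹(D,W₂) ∩ B¹` (`D` acts trivially on `W₁/W₂`).
     `#(Z + B) = #Z #B / #(Z ∩ B) ≤ #Z * #∂W / #∂W₁ = #Z * #W / #W₁` (`ker ∂ = W^D ⊆ W₁`: an invariant `w` commutes with `rbar (I) ∋ u ≠ 1`... or simply: `#∂W/#∂W₁ ≤ #W/#W₁` always, because `W/W₁ ↠ ∂W/∂W₁`) `= #k³ * #k = #k⁴`.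
 [H1MU] `#Z¹(D_p, k(χ)) ≤ #k³`.  As `𝔽_p[D]`-module `k(χ) = 𝔽_p(χ)^f`, so it suffices `#Z¹(D_p, μ_p) ≤ p³`.  Hilbert 90 (`CFT/Global/GC3/Setup.lean h90_all`): `c σ = σ y / y`, `y^p = x ∈ K_h = ℚbar^D`;
     `Z¹ ≅ {y : y^p ∈ K_h}/K_hˣ`, `y ↦ y^p` maps it onto `K_hˣ/p` with kernel `μ_p`.  `#K_hˣ/p ≤ p²`: `x = p^n u` (`Bridge.exists_zpow_of_fixed`), `u ≡ a mod p²`, `a ∈ ℤ` (`Bridge.exists_close_of_fixed`), `u/a ∈ 1 + p² A` is a `p`-th power in `K_h` (`Bridge.exists_root_fixed_iff`), `(ℤ/p²)ˣ/p` has order `p`.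
-/

set_option autoImplicit false

open ExtCitation

namespace Fermat.Agent.S56

open CFT (levS levAll decomp Z1 B1 Qb chiRep)

variable {p : ℕ} [Fact p.Prime] {k : Type} [Field k] [Finite k] [CharP k p]

/-- the cyclotomic character is ramified at `p ≥ 3` -/
theorem chiK_inert_ne_one (hp2 : p ≠ 2) : ∃ σ ∈ inert (pPrime p), chiK p k σ ≠ 1 :=
  H1Mu.chiK_inert_ne_one hp2

/-- **[H1MU]** -/
theorem card_Z1loc_chi_le (hp2 : p ≠ 2) :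
    Finite ↥(Z1loc (chiRep (chiK p k)) (pPrime p)) ∧
      Nat.card ↥(Z1loc (chiRep (chiK p k)) (pPrime p)) ≤ Nat.card k ^ 3 :=
  H1Mu.card_Z1loc_chi_le hp2

/-- cocycles on `D_p` with values in the line `g₀⁻¹ (0 *; 0 0) g₀`, plus coboundaries -/
noncomputable def Lord (rbar : GQ →* M2 k) (g₀ : (M2 k)ˣ) (v : Nat.Primes) :
    Submodule k (↥(decomp v) → sl2 k) :=
  (Z1loc (adRep rbar) v ⊓
    { carrier := {c | ∀ σ, ∃ t : k, ((c σ : sl2 k) : M2 k) =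
        ((g₀⁻¹ : (M2 k)ˣ) : M2 k) * (t • Matrix.single 0 1 1) * (g₀ : M2 k)}
      add_mem' := by
        intro a b ha hb σ
        obtain ⟨t, ht⟩ := ha σ
        obtain ⟨t', ht'⟩ := hb σ
        exact ⟨t + t', by simp [ht, ht', add_smul, mul_add, add_mul]⟩
      zero_mem' := fun σ => ⟨0, by simp⟩
      smul_mem' := by
        intro s a ha σ
        obtain ⟨t, ht⟩ := ha σ
        exact ⟨s * t, by
          rw [Pi.smul_apply, Submodule.coe_smul, ht, mul_smul, Matrix.mul_smul, Matrix.smul_mul,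
            Matrix.mul_smul, Matrix.smul_mul, Matrix.mul_smul, Matrix.smul_mul]⟩ }) ⊔ B1loc (adRep rbar) v

omit [Finite k] in
theorem Lord_eq (rbar : GQ →* M2 k) (g₀ : (M2 k)ˣ) (v : Nat.Primes) :
    Lord rbar g₀ v = (Z1loc (adRep rbar) v ⊓ W2val g₀ v) ⊔ B1loc (adRep rbar) v := rfl

/-- (4): the count -/
theorem card_Lord_le (hp2 : p ≠ 2) (rbar : GQ →* M2 k) (hcont : GaloisFactorsThroughFiniteLevel rbar)
    (g₀ : (M2 k)ˣ)
    (htri : ∀ σ ∈ decomp (pPrime p), ∃ z b : k, z * z = 1 ∧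
      (g₀ : M2 k) * rbar σ * ((g₀⁻¹ : (M2 k)ˣ) : M2 k) = !![(chiK p k σ : k) * z, b; 0, z]) :
    Finite ↥(Lord rbar g₀ (pPrime p)) ∧ Nat.card ↥(Lord rbar g₀ (pPrime p)) ≤ Nat.card k ^ 4 := by
  rw [Lord_eq]
  exact card_sup_le (χ := chiK p k) htri (B1loc_le_Z1loc _ (isSmooth_adRep rbar hcont) _)
    (card_Z1loc_chi_le hp2)

/-- (1)-(3) -/
theorem exists_ord_normal_form (hp2 : p ≠ 2) (h2 : (2 : k) ≠ 0) (rbar : GQ →* M2 k)
    (hdet : ∀ σ, (rbar σ).det = (chiK p k σ : k))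
    (hex : ∃ (ρ₁ : GaloisRepAdic (DualNumber k)) (r₁ : GQ →* M2 (DualNumber k)),
        S53.HasMatrix ρ₁ r₁ ∧ IsLift rbar r₁ ∧
        (∀ σ, (r₁ σ).det = TrivSqZeroExt.inl (rbar σ).det) ∧ ρ₁.IsStrictOrdinaryAt p) :
    ∃ g₀ : (M2 k)ˣ,
      (∀ σ ∈ decomp (pPrime p), ∃ z b : k, z * z = 1 ∧
        (g₀ : M2 k) * rbar σ * ((g₀⁻¹ : (M2 k)ˣ) : M2 k) = !![(chiK p k σ : k) * z, b; 0, z]) ∧
      ∀ (ρ₁ : GaloisRepAdic (DualNumber k)) (r₁ : GQ →* M2 (DualNumber k)),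
        S53.HasMatrix ρ₁ r₁ → IsLift rbar r₁ →
        (∀ σ, (r₁ σ).det = TrivSqZeroExt.inl (rbar σ).det) → ρ₁.IsStrictOrdinaryAt p →
        resLoc k (pPrime p) (coc h2 r₁) ∈ Lord rbar g₀ (pPrime p) :=
  exists_ord_normal_form_aux h2 rbar hdet (chiK_inert_ne_one hp2) hex

/-- **[LOC-ORD]** -/
theorem exists_ord_condition (hp2 : p ≠ 2) (h2 : (2 : k) ≠ 0) (rbar : GQ →* M2 k)
    (hcont : GaloisFactorsThroughFiniteLevel rbar)
    (hdet : ∀ σ, (rbar σ).det = (chiK p k σ : k)) :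
    ∃ L : Submodule k (↥(decomp (pPrime p)) → sl2 k),
      B1loc (adRep rbar) (pPrime p) ≤ L ∧ L ≤ Z1loc (adRep rbar) (pPrime p) ∧
      Finite ↥L ∧ Nat.card ↥L ≤ Nat.card k ^ 4 ∧
      ∀ (ρ₁ : GaloisRepAdic (DualNumber k)) (r₁ : GQ →* M2 (DualNumber k)),
        S53.HasMatrix ρ₁ r₁ → IsLift rbar r₁ →
        (∀ σ, (r₁ σ).det = TrivSqZeroExt.inl (rbar σ).det) → ρ₁.IsStrictOrdinaryAt p →
        resLoc k (pPrime p) (coc h2 r₁) ∈ L := by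
  have hB : B1loc (adRep rbar) (pPrime p) ≤ Z1loc (adRep rbar) (pPrime p) :=
    B1loc_le_Z1loc _ (isSmooth_adRep rbar hcont) _
  by_cases hex : ∃ (ρ₁ : GaloisRepAdic (DualNumber k)) (r₁ : GQ →* M2 (DualNumber k)),
        S53.HasMatrix ρ₁ r₁ ∧ IsLift rbar r₁ ∧
        (∀ σ, (r₁ σ).det = TrivSqZeroExt.inl (rbar σ).det) ∧ ρ₁.IsStrictOrdinaryAt p
  · obtain ⟨g₀, htri, hmem⟩ := exists_ord_normal_form hp2 h2 rbar hdet hex
    obtain ⟨hf, hc⟩ := card_Lord_le hp2 rbar hcont g₀ htri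
    exact ⟨Lord rbar g₀ (pPrime p), le_sup_right, sup_le inf_le_left hB, hf, hc, hmem⟩
  · have hfin : Finite (sl2 k) := Finite.of_injective (fun x : sl2 k => (x : M2 k)) Subtype.val_injective
    have hsurj : Function.Surjective
        (fun w : sl2 k => (⟨CFT.d01 (locRep (adRep rbar) (pPrime p)) w, ⟨w, rfl⟩⟩ :
          ↥(B1loc (adRep rbar) (pPrime p)))) := by
      rintro ⟨_, w, rfl⟩
      exact ⟨w, rfl⟩
    have hfB : Finite ↥(B1loc (adRep rbar) (pPrime p)) := Finite.of_surjective _ hsurj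
    refine ⟨B1loc (adRep rbar) (pPrime p), le_rfl, hB, hfB, ?_, fun ρ₁ r₁ hm hl hd ho =>
      absurd ⟨ρ₁, r₁, hm, hl, hd, ho⟩ hex⟩
    calc Nat.card ↥(B1loc (adRep rbar) (pPrime p)) ≤ Nat.card (sl2 k) :=
          Nat.card_le_card_of_surjective _ hsurj
      _ ≤ Nat.card (M2 k) := Nat.card_le_card_of_injective (fun x : sl2 k => (x : M2 k)) Subtype.val_injective
      _ = Nat.card k ^ 4 := by
          change Nat.card (Fin 2 → Fin 2 → k) = _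
          rw [Nat.card_fun, Nat.card_fun, Nat.card_eq_fintype_card (α := Fin 2), Fintype.card_fin,
            ← pow_mul]

end Fermat.Agent.S56
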