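import Fermat.Agent.S56.Flat.Irr.Main
import Fermat.Agent.S56.Flat.Ord.Main

/-!
# S56 / [FLAT-TAN] : the flat local condition at `p`.   OWNERS: helper66 / helper57 (+ helper78, helper34, helper30).  EXACT TARGET.

`dim L_p ≤ h⁰(D_p, ad⁰) + 1` in cocycle form: `#L̃_p ≤ #k⁴` (`L̃_p ⊇ B¹`, `#B¹ = #k³ / #H⁰`).
If `rbar|_{D_p}` has no flat deformation at all take `L = B1loc`.
CASE SPLIT: `rbar|_{D_p}` has a stable line (`Flat/Ord/Main.lean`, helper57) or not (`Flat/Irr/Main.lean`, helper34 + `Font/KT`, helper78).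
-/

set_option autoImplicit false

open ExtCitation Polynomial

namespace Fermat.Agent.S56

open CFT (levS levAll decomp Z1 B1 Qb)

/-- **[FLAT-TAN]** -/
theorem exists_flat_condition {p : ℕ} [Fact p.Prime] (hp2 : p ≠ 2) {k : Type} [Field k] [Finite k]
    [CharP k p] (h2 : (2 : k) ≠ 0) (rbar : GQ →* M2 k)
    (hcont : GaloisFactorsThroughFiniteLevel rbar)
    (hdet : ∀ σ, (rbar σ).det = (chiK p k σ : k))
    (hsplit : ∀ σ, ∃ α β : k, (rbar σ).charpoly = (X - C α) * (X - C β)) :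
    ∃ L : Submodule k (↥(decomp (pPrime p)) → sl2 k),
      B1loc (adRep rbar) (pPrime p) ≤ L ∧ L ≤ Z1loc (adRep rbar) (pPrime p) ∧
      Finite ↥L ∧ Nat.card ↥L ≤ Nat.card k ^ 4 ∧
      ∀ (ρ₁ : GaloisRepAdic (DualNumber k)) (r₁ : GQ →* M2 (DualNumber k)),
        S53.HasMatrix ρ₁ r₁ → IsLift rbar r₁ →
        (∀ σ, (r₁ σ).det = TrivSqZeroExt.inl (rbar σ).det) → ρ₁.IsFlatAt p →
        resLoc k (pPrime p) (coc h2 r₁) ∈ L := by
  by_cases hred : ∃ w : Fin 2 → k, w ≠ 0 ∧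
      ∀ σ ∈ decomp (pPrime p), ∃ c : k, (rbar σ).mulVec w = c • w
  · exact Flat.exists_flat_condition_red hp2 h2 rbar hcont hdet hred
  · refine exists_flat_condition_irr hp2 h2 rbar hcont hdet hsplit (fun w hw => ?_)
    by_contra hcon
    push Not at hcon
    exact hred ⟨w, hw, hcon⟩

end Fermat.Agent.S56
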