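import Fermat.Agent.S56.Loc.Ur

/-!
# S56 / LOC-Q : `#Z¹(D_q, ad⁰ ρ̄) ≤ #k⁴` at a Taylor-Wiles prime (proofs; wired in `Loc/Min.lean`).
-/

set_option autoImplicit false

open ExtCitation Polynomial

namespace Fermat.Agent.S56

open CFT (levS levAll decomp Z1 B1 Qb)

namespace LocQ

section Line

variable {k : Type} [Field k]

theorem trace_det_of_charpoly (g : M2 k) (α β : k) (hg : g.charpoly = (X - C α) * (X - C β)) :
    g.trace = α + β ∧ g.det = α * β := by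
  rw [Matrix.charpoly_fin_two] at hg
  have he : (X - C α) * (X - C β) = X ^ 2 - C (α + β) * X + C (α * β) := by
    rw [map_add, map_mul]; ring
  rw [he] at hg
  have h0 := congrArg (fun P => P.coeff 0) hg
  have h1 := congrArg (fun P => P.coeff 1) hg
  simp [coeff_X, coeff_C, coeff_X_pow] at h0 h1
  exact ⟨by linear_combination -h1, h0⟩

/-- (3) of [LOC-Q] -/
theorem exists_line_commutant (g : M2 k) (α β : k) (hαβ : α ≠ β)
    (hg : g.charpoly = (X - C α) * (X - C β)) :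
    ∃ h₀ : M2 k, ∀ w : M2 k, w.trace = 0 → g * w = w * g → ∃ t : k, w = t • h₀ := by
  obtain ⟨htr, hdet⟩ := trace_det_of_charpoly g α β hg
  rw [Matrix.trace_fin_two] at htr
  rw [Matrix.det_fin_two] at hdet
  set a := g 0 0
  set b := g 0 1
  set c := g 1 0
  set d := g 1 1
  have hΔ : (a - d) ^ 2 + 4 * b * c = (α - β) ^ 2 := by
    have : (a - d) ^ 2 + 4 * b * c = (a + d) ^ 2 - 4 * (a * d - b * c) := by ring
    rw [this, htr, hdet]; ring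
  have hΔ0 : (a - d) ^ 2 + 4 * b * c ≠ 0 := by
    rw [hΔ]
    exact pow_ne_zero 2 (sub_ne_zero.2 hαβ)
  refine ⟨!![a - d, 2 * b; 2 * c, -(a - d)], fun w hw hc => ?_⟩
  rw [Matrix.trace_fin_two] at hw
  have e00 := congrFun (congrFun hc 0) 0
  have e01 := congrFun (congrFun hc 0) 1
  have e10 := congrFun (congrFun hc 1) 0
  simp only [Matrix.mul_apply, Fin.sum_univ_two] at e00 e01 e10
  change a * w 0 0 + b * w 1 0 = w 0 0 * a + w 0 1 * c at e00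
  change a * w 0 1 + b * w 1 1 = w 0 0 * b + w 0 1 * d at e01
  change c * w 0 0 + d * w 1 0 = w 1 0 * a + w 1 1 * c at e10
  have hw' : w 1 1 = - w 0 0 := by linear_combination hw
  rw [hw'] at e01 e10
  refine ⟨((a - d) * w 0 0 + 2 * c * w 0 1) / ((a - d) ^ 2 + 4 * b * c), ?_⟩
  ext i j
  fin_cases i <;> fin_cases j
  · show w 0 0 = _ * (a - d)
    rw [div_mul_eq_mul_div, eq_div_iff hΔ0]
    linear_combination (-2 * c) * e01
  · show w 0 1 = _ * (2 * b)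
    rw [div_mul_eq_mul_div, eq_div_iff hΔ0]
    linear_combination ((a - d)) * e01
  · show w 1 0 = _ * (2 * c)
    rw [div_mul_eq_mul_div, eq_div_iff hΔ0]
    linear_combination (-(a - d)) * e10 + (4 * c) * e00
  · show w 1 1 = _ * (-(a - d))
    rw [hw', div_mul_eq_mul_div, eq_div_iff hΔ0]
    linear_combination (2 * c) * e01

end Line

section Coc

variable {k : Type} [CommRing k] {W : Type} [AddCommGroup W] [Module k W]
  {ρ : Representation k GQ W} {q : Nat.Primes}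

theorem coc_mul {c : ↥(decomp q) → W} (hc : c ∈ Z1loc ρ q) (σ τ : ↥(decomp q)) :
    c (σ * τ) = c σ + ρ σ (c τ) := by
  have h := congrFun (LinearMap.mem_ker.1 hc.1) (σ, τ)
  rw [CFT.d12_apply] at h
  change ρ σ (c τ) - c (σ * τ) + c σ = 0 at h
  have h2 : c (σ * τ) = ρ σ (c τ) + c σ := by
    rw [sub_add_eq_add_sub, sub_eq_zero] at h
    exact h.symm
  rw [h2, add_comm]

theorem coc_one {c : ↥(decomp q) → W} (hc : c ∈ Z1loc ρ q) : c 1 = 0 := by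
  have h := coc_mul hc 1 1
  rw [mul_one] at h
  have h1 : ρ ((1 : ↥(decomp q)) : GQ) (c 1) = c 1 := by
    rw [Subgroup.coe_one, map_one]; rfl
  rw [h1] at h
  exact left_eq_add.1 h

/-- the restriction of a cocycle to inertia, when inertia acts trivially -/
noncomputable def homI (htriv : ∀ σ ∈ inert q, ρ σ = 1) {c : ↥(decomp q) → W} (hc : c ∈ Z1loc ρ q) :
    ↥(inert q) →* Multiplicative W where
  toFun σ := Multiplicative.ofAdd (c ⟨σ, inert_le_decomp q σ.2⟩)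
  map_one' := by
    have : (⟨((1 : ↥(inert q)) : GQ), inert_le_decomp q (1 : ↥(inert q)).2⟩ : ↥(decomp q)) = 1 := rfl
    rw [this, coc_one hc]
    rfl
  map_mul' σ τ := by
    have : (⟨((σ * τ : ↥(inert q)) : GQ), inert_le_decomp q (σ * τ).2⟩ : ↥(decomp q)) =
        ⟨σ, inert_le_decomp q σ.2⟩ * ⟨τ, inert_le_decomp q τ.2⟩ := rfl
    rw [this, coc_mul hc]
    have h1 : ρ ((⟨σ, inert_le_decomp q σ.2⟩ : ↥(decomp q)) : GQ) = 1 := htriv σ σ.2
    rw [h1]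
    rfl

theorem homI_apply (htriv : ∀ σ ∈ inert q, ρ σ = 1) {c : ↥(decomp q) → W} (hc : c ∈ Z1loc ρ q)
    (σ : ↥(inert q)) :
    homI htriv hc σ = Multiplicative.ofAdd (c ⟨σ, inert_le_decomp q σ.2⟩) := rfl

theorem homI_cont (htriv : ∀ σ ∈ inert q, ρ σ = 1) {c : ↥(decomp q) → W} (hc : c ∈ Z1loc ρ q) :
    ∃ L : IntermediateField ℚ Qb, FiniteDimensional ℚ L ∧
      ∀ σ : ↥(inert q), (∀ x ∈ L, (σ : GQ) x = x) → homI htriv hc σ = 1 := by
  obtain ⟨_, ⟨_, ⟨F, hF, -, rfl⟩, rfl⟩, hU⟩ := hc.2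
  refine ⟨F, hF, fun σ hσ => ?_⟩
  have h := hU 1 ⟨σ, inert_le_decomp q σ.2⟩ (by
    rw [Subgroup.mem_comap]
    intro x
    exact hσ x.1 x.2)
  rw [one_mul, coc_one hc] at h
  rw [homI_apply, h]
  rfl

/-- (2) of [LOC-Q] : the values on inertia are fixed by Frobenius. -/
theorem frob_fixed {p : ℕ} (hp : p.Prime) (hqp : (q : ℕ) ≠ p) (hq1 : p ∣ (q : ℕ) - 1)
    (hpW : ∀ w : W, p • w = 0) (htriv : ∀ σ ∈ inert q, ρ σ = 1) {φ : GQ}
    (hφ : (primeLocalPlace q).IsFrobeniusAt φ (q : ℕ))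
    {c : ↥(decomp q) → W} (hc : c ∈ Z1loc ρ q) (σ : ↥(inert q)) :
    ρ φ (c ⟨σ, inert_le_decomp q σ.2⟩) = c ⟨σ, inert_le_decomp q σ.2⟩ := by
  have hA := liesOverPrime_primeLocalPlace q
  have hφD : φ ∈ decomp q := hφ.mem_decompositionSubgroup
  have hconj : φ * (σ : GQ) * φ⁻¹ ∈ inert q := conj_mem_inertia q.2 hA hφD σ.2
  have hcop : Nat.Coprime p q := (Nat.coprime_primes hp q.2).2 (Ne.symm hqp)
  have h1 := tame_frob q.2 hA (homI htriv hc) (homI_cont htriv hc) p hcop (fun τ => by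
    rw [homI_apply, ← ofAdd_nsmul, hpW]; rfl) hφ σ hconj
  rw [homI_apply, homI_apply, ← ofAdd_nsmul] at h1
  have h2 := Multiplicative.ofAdd.injective h1
  -- `q • w = w`
  set w := c ⟨σ, inert_le_decomp q σ.2⟩ with hw
  have h3 : (q : ℕ) • w = w := by
    obtain ⟨m, hm⟩ := hq1
    have hq : (q : ℕ) = p * m + 1 := by
      have := q.2.one_lt
      omega
    rw [hq, add_smul, one_smul, mul_comm, mul_smul, hpW, smul_zero, zero_add]
  rw [h3] at h2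
  -- the cocycle relation
  set Φ : ↥(decomp q) := ⟨φ, hφD⟩ with hΦ
  set Sg : ↥(decomp q) := ⟨σ, inert_le_decomp q σ.2⟩ with hSg
  have h4 : (⟨φ * (σ : GQ) * φ⁻¹, inert_le_decomp q hconj⟩ : ↥(decomp q)) = Φ * Sg * Φ⁻¹ := rfl
  rw [h4, coc_mul hc, coc_mul hc] at h2
  have h5 : c Φ + ρ Φ (c Φ⁻¹) = 0 := by
    rw [← coc_mul hc, mul_inv_cancel, coc_one hc]
  have h6 : ρ ((Φ * Sg : ↥(decomp q)) : GQ) (c Φ⁻¹) = ρ Φ (c Φ⁻¹) := by
    rw [Subgroup.coe_mul, map_mul]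
    have : ρ (Sg : GQ) = 1 := htriv σ σ.2
    rw [this, mul_one]
  rw [h6] at h2
  have h7 : ρ φ w = c Φ + ρ Φ (c Sg) + ρ Φ (c Φ⁻¹) - (c Φ + ρ Φ (c Φ⁻¹)) := by
    show ρ φ w = c Φ + ρ φ w + ρ Φ (c Φ⁻¹) - (c Φ + ρ Φ (c Φ⁻¹))
    abel
  rw [h7, h2, h5, sub_zero]

/-- (4) of [LOC-Q] : two cocycles are simultaneously "cyclic" on inertia. -/
theorem exists_common_gen {p : ℕ} (hp : p.Prime) (hqp : (q : ℕ) ≠ p)
    (hpW : ∀ w : W, p • w = 0) (htriv : ∀ σ ∈ inert q, ρ σ = 1)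
    {c₁ c₂ : ↥(decomp q) → W} (hc₁ : c₁ ∈ Z1loc ρ q) (hc₂ : c₂ ∈ Z1loc ρ q) :
    ∃ σ₀ : ↥(inert q), ∀ σ : ↥(inert q), ∃ n : ℕ,
      c₁ ⟨σ, inert_le_decomp q σ.2⟩ = n • c₁ ⟨σ₀, inert_le_decomp q σ₀.2⟩ ∧
      c₂ ⟨σ, inert_le_decomp q σ.2⟩ = n • c₂ ⟨σ₀, inert_le_decomp q σ₀.2⟩ := by
  have hA := liesOverPrime_primeLocalPlace q
  have hcop : Nat.Coprime p q := (Nat.coprime_primes hp q.2).2 (Ne.symm hqp)
  obtain ⟨L₁, hL₁, h₁⟩ := homI_cont htriv hc₁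
  obtain ⟨L₂, hL₂, h₂⟩ := homI_cont htriv hc₂
  obtain ⟨σ₀, hσ₀⟩ := tame_cyclic q.2 hA ((homI htriv hc₁).prod (homI htriv hc₂))
    ⟨L₁ ⊔ L₂, IntermediateField.finiteDimensional_sup L₁ L₂, fun σ hσ => by
      rw [MonoidHom.prod_apply, h₁ σ (fun x hx => hσ x ((le_sup_left : L₁ ≤ L₁ ⊔ L₂) hx)),
        h₂ σ (fun x hx => hσ x ((le_sup_right : L₂ ≤ L₁ ⊔ L₂) hx))]
      rfl⟩ p hcop (fun τ => by
      rw [MonoidHom.prod_apply, Prod.pow_mk, homI_apply, homI_apply, ← ofAdd_nsmul, ← ofAdd_nsmul,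
        hpW, hpW]
      rfl)
  refine ⟨σ₀, fun σ => ?_⟩
  obtain ⟨n, hn⟩ := hσ₀ σ
  rw [MonoidHom.prod_apply, MonoidHom.prod_apply, Prod.pow_mk, homI_apply, homI_apply, homI_apply,
    homI_apply, ← ofAdd_nsmul, ← ofAdd_nsmul, Prod.mk.injEq] at hn
  exact ⟨n, Multiplicative.ofAdd.injective hn.1, Multiplicative.ofAdd.injective hn.2⟩

end Coc

section Main

variable {p : ℕ} [Fact p.Prime] {k : Type} [Field k] [Finite k] [CharP k p]

theorem card_sl2_le : Nat.card ↥(sl2 k) ≤ Nat.card k ^ 3 := by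
  have hinj : Function.Injective (fun w : ↥(sl2 k) => ((w : M2 k) 0 0, (w : M2 k) 0 1, (w : M2 k) 1 0)) := by
    intro w w' h
    simp only [Prod.mk.injEq] at h
    obtain ⟨h1, h2, h3⟩ := h
    have t := (mem_sl2 _).1 w.2
    have t' := (mem_sl2 _).1 w'.2
    rw [Matrix.trace_fin_two] at t t'
    apply Subtype.ext
    ext i j
    fin_cases i <;> fin_cases j
    · exact h1
    · exact h2
    · exact h3
    · show (w : M2 k) 1 1 = (w' : M2 k) 1 1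
      linear_combination t - t' - h1
  calc Nat.card ↥(sl2 k) ≤ Nat.card (k × k × k) := Nat.card_le_card_of_injective _ hinj
    _ = Nat.card k ^ 3 := by rw [Nat.card_prod, Nat.card_prod]; ring

/-- **[LOC-Q]** -/
theorem card_Z1loc_le (rbar : GQ →* M2 k)
    (q : Nat.Primes) (hqp : (q : ℕ) ≠ p) (hq1 : p ∣ (q : ℕ) - 1)
    (hur : ∀ σ ∈ inert q, rbar σ = 1) (φ : GQ) (hφ : (primeLocalPlace q).IsFrobeniusAt φ (q : ℕ))
    (α β : k) (hαβ : α ≠ β) (hchar : (rbar φ).charpoly = (X - C α) * (X - C β)) :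
    Finite ↥(Z1loc (adRep rbar) q) ∧ Nat.card ↥(Z1loc (adRep rbar) q) ≤ Nat.card k ^ 4 := by
  have hp : p.Prime := Fact.out
  have hφD : φ ∈ decomp q := hφ.mem_decompositionSubgroup
  have hpW : ∀ w : ↥(sl2 k), p • w = 0 := by
    intro w
    rw [← Nat.cast_smul_eq_nsmul k, CharP.cast_eq_zero, zero_smul]
  have htriv : ∀ σ ∈ inert q, adRep rbar σ = 1 := by
    intro σ hσ
    ext w : 2
    rw [adRep_apply_coe, hur σ hσ, hur σ⁻¹ (inv_mem hσ), one_mul, mul_one]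
    rfl
  obtain ⟨h₀, hh₀⟩ := exists_line_commutant (rbar φ) α β hαβ hchar
  -- values on inertia are on the line
  have hline : ∀ c ∈ Z1loc (adRep rbar) q, ∀ σ : ↥(inert q),
      ∃ t : k, ((c ⟨σ, inert_le_decomp q σ.2⟩ : ↥(sl2 k)) : M2 k) = t • h₀ := by
    intro c hc σ
    have h1 := frob_fixed hp hqp hq1 hpW htriv hφ hc σ
    have h2 := congrArg (fun w : ↥(sl2 k) => (w : M2 k)) h1
    simp only [adRep_apply_coe] at h2
    refine hh₀ _ ((mem_sl2 _).1 (c ⟨σ, inert_le_decomp q σ.2⟩).2) ?_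
    have h3 : rbar φ⁻¹ * rbar φ = 1 := by rw [← map_mul, inv_mul_cancel, map_one]
    calc rbar φ * ((c ⟨σ, inert_le_decomp q σ.2⟩ : ↥(sl2 k)) : M2 k)
        = rbar φ * ((c ⟨σ, inert_le_decomp q σ.2⟩ : ↥(sl2 k)) : M2 k) * (rbar φ⁻¹ * rbar φ) := by
          rw [h3, mul_one]
      _ = (rbar φ * ((c ⟨σ, inert_le_decomp q σ.2⟩ : ↥(sl2 k)) : M2 k) * rbar φ⁻¹) * rbar φ := by
          rw [mul_assoc, mul_assoc, mul_assoc]
      _ = _ := by rw [h2]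
  -- the restrictions to inertia form a space of dimension at most one
  have hdim : ∃ c₁ ∈ Z1loc (adRep rbar) q, ∀ c ∈ Z1loc (adRep rbar) q, ∃ t : k,
      ∀ σ : ↥(inert q), c ⟨σ, inert_le_decomp q σ.2⟩ = t • c₁ ⟨σ, inert_le_decomp q σ.2⟩ := by
    by_cases hall : ∀ c ∈ Z1loc (adRep rbar) q, ∀ σ : ↥(inert q), c ⟨σ, inert_le_decomp q σ.2⟩ = 0
    · exact ⟨0, zero_mem _, fun c hc => ⟨0, fun σ => by rw [hall c hc σ, zero_smul]⟩⟩
    · push Not at hall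
      obtain ⟨c₁, hc₁, σ₁, hσ₁⟩ := hall
      refine ⟨c₁, hc₁, fun c hc => ?_⟩
      obtain ⟨σ₀, hσ₀⟩ := exists_common_gen hp hqp hpW htriv hc₁ hc
      obtain ⟨t₁, ht₁⟩ := hline c₁ hc₁ σ₀
      obtain ⟨t₂, ht₂⟩ := hline c hc σ₀
      have hne : c₁ ⟨σ₀, inert_le_decomp q σ₀.2⟩ ≠ 0 := by
        intro h0
        obtain ⟨n, hn, -⟩ := hσ₀ σ₁
        rw [h0, smul_zero] at hn
        exact hσ₁ hn
      have ht₁0 : t₁ ≠ 0 := by
        rintro rfl
        apply hne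
        apply Subtype.ext
        rw [ht₁, zero_smul]
        rfl
      have hrel : c ⟨σ₀, inert_le_decomp q σ₀.2⟩ = (t₂ / t₁) • c₁ ⟨σ₀, inert_le_decomp q σ₀.2⟩ := by
        apply Subtype.ext
        rw [Submodule.coe_smul, ht₁, ht₂, smul_smul, div_mul_cancel₀ _ ht₁0]
      refine ⟨t₂ / t₁, fun σ => ?_⟩
      obtain ⟨n, hn₁, hn₂⟩ := hσ₀ σ
      rw [hn₁, hn₂, hrel, smul_comm]
  obtain ⟨c₁, hc₁, hc₁'⟩ := hdim
  choose! t ht using hc₁'
  have hinj : Function.Injective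
      (fun c : ↥(Z1loc (adRep rbar) q) => ((c : ↥(decomp q) → ↥(sl2 k)) ⟨φ, hφD⟩, t c)) := by
    intro c c' h
    simp only [Prod.mk.injEq] at h
    obtain ⟨h1, h2⟩ := h
    have h3 : (c - c' : ↥(Z1loc (adRep rbar) q)).1 = 0 := by
      refine eq_zero_of_unramified (adRep rbar) q hφ hφD (c - c').2 ?_ ?_
      · intro σ hσ
        show c.1 σ - c'.1 σ = 0
        have e1 := ht c.1 c.2 ⟨σ, hσ⟩
        have e2 := ht c'.1 c'.2 ⟨σ, hσ⟩
        have e3 : (⟨((⟨σ, hσ⟩ : ↥(inert q)) : GQ), inert_le_decomp q hσ⟩ : ↥(decomp q)) = σ := rfl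
        rw [e3] at e1 e2
        rw [e1, e2, h2, sub_self]
      · show c.1 ⟨φ, hφD⟩ - c'.1 ⟨φ, hφD⟩ = 0
        rw [h1, sub_self]
    exact sub_eq_zero.1 (Subtype.ext h3)
  have hfinW : Finite ↥(sl2 k) := inferInstance
  refine ⟨Finite.of_injective _ hinj, ?_⟩
  calc Nat.card ↥(Z1loc (adRep rbar) q) ≤ Nat.card (↥(sl2 k) × k) :=
        Nat.card_le_card_of_injective _ hinj
    _ = Nat.card ↥(sl2 k) * Nat.card k := Nat.card_prod _ _
    _ ≤ Nat.card k ^ 3 * Nat.card k := Nat.mul_le_mul_right _ card_sl2_le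
    _ = Nat.card k ^ 4 := by ring

end Main

end LocQ

end Fermat.Agent.S56
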