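import Fermat.Agent.S56.Loc.Ur
import Fermat.Agent.S56.Loc.Q
import Fermat.Agent.S56.TD.Coc

/-!
# S56 / LOC-MIN, LOC-Q : the local conditions at `q ≠ p`.

## [RES]  restriction of global cocycles / coboundaries to `D_v` (formal; cf. `CFT/Coh/Sub.lean res_mem_Z1`).

## [LOC-MIN]  `q ≠ p`, `ρ̄` ramified at `q`, `ρ₁` a deformation to `k[ε]` with `charpoly (ρ₁ σ) = (X-1)²` for `σ ∈ I_q`  ⟹  `coc r₁ |_{D_q} ∈ Lur`.
 (1) `u = r₁ σ`, `σ ∈ I`: Cayley-Hamilton `(u-1)² = 0`, so `u^p = 1 + p (u - 1) = 1` (`p = 0` in `k[ε]`).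
 (2) `tame_cyclic` (`N = p`, `h = r₁|_I`, continuity from `S53.HasMatrix.matCont` + `matCont_dualNumber_iff`): `r₁ σ = u₁^n`, `u₁ = r₁ σ₀`.  `ū = rbar σ₀ ≠ 1` because `rbar (I) ≠ 1`.
 (3) `N₁ = u₁ - 1`, `N̄ = ū - 1 ≠ 0`, `N₁² = 0 = N̄²`, `tr N₁ = 0 = det N₁` (from the charpoly).  CLAIM: there is `m ∈ M2 k` with `(1 + ε m) ū = u₁ (1 + ε m)`.
   [choose `g₀ ∈ GL₂(k)` with `g₀ N̄ g₀⁻¹ = E₁₂`; then `g₀ N₁ g₀⁻¹ = (ε a, 1 + ε b; ε c, - ε a)` and `det = - ε c` gives `c = 0`; `[m', E₁₂] = (a, b; 0, -a)` is solved by `m' = (b, 0; -a, 0)`.]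
   WARNING: `charpoly = (X-1)²` for all elements is NOT enough without cyclicity (`diag(1 + ε a, 1 - ε a)`).
 (4) so `r₁ σ = (1 + ε m) rbar σ (1 - ε m)` for all `σ ∈ I` (powers of `σ₀`), i.e. `cocM r₁ σ = m - rbar σ m rbar σ⁻¹`, `coc r₁ σ = σ w - w` with `w = - toSl2 m`.

## [LOC-Q]  `q ≡ 1 mod p`, `ρ̄` unramified at `q`, `ρ̄(Frob)` has distinct eigenvalues `α ≠ β ∈ k`  ⟹  `#Z¹(D_q, W) ≤ #k⁴`.
 (1) `c|_I : I → W` is a continuous homomorphism (`I` acts trivially), `p c = 0`.  (2) `c (φ σ φ⁻¹) = φ c σ` (cocycle relation, `σ` acts trivially).  `tame_frob`: `c (φ σ φ⁻¹) = q c σ = c σ`.  So `c σ ∈ W^φ`.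
 (3) `W^φ = {w ∈ sl₂ : w commutes with rbar φ}` is a line `k h₀` (`rbar φ` regular semisimple).  So `c σ = λ_c σ • h₀`.
 (4) two cocycles `c₁, c₂`: `tame_cyclic` for `h = (c₁, c₂)|_I : I → W × W` gives `σ₀` with `c_i σ = n c_i σ₀`.  Hence: `c₁ σ₀ = 0 ⟹ c₁|_I = 0`, and in general `c₂|_I - t c₁|_I = 0` for a suitable `t ∈ k`: `{c|_I}` has `k`-dimension `≤ 1`.
 (5) `c ↦ (c φ, c|_I)` is injective (`eq_zero_of_unramified`):  `#Z¹ ≤ #W * #k = #k⁴`.
-/

set_option autoImplicit false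

open ExtCitation Polynomial

namespace Fermat.Agent.S56

open CFT (levS levAll decomp Z1 B1 Qb)

section Res

variable {k : Type} [CommRing k] {W : Type} [AddCommGroup W] [Module k W]

theorem resLoc_mem_Z1loc' (ρ : Representation k GQ W) {c : GQ → W}
    (hc : c ∈ Z1 levAll ρ) (v : Nat.Primes) : resLoc k v c ∈ Z1loc ρ v := by
  refine ⟨?_, ?_⟩
  · refine LinearMap.mem_ker.2 ?_
    funext ⟨g, s⟩
    exact congrFun (LinearMap.mem_ker.1 hc.1) ((g : GQ), (s : GQ))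
  · obtain ⟨U, hU, h⟩ := hc.2
    exact ⟨U.comap (decomp v).subtype, ⟨U, hU, rfl⟩, fun g s hs => h g s hs⟩

theorem resLoc_mem_Z1loc (ρ : Representation k GQ W) (T : Finset Nat.Primes) {c : GQ → W}
    (hc : c ∈ Z1 (levS T) ρ) (v : Nat.Primes) : resLoc k v c ∈ Z1loc ρ v := by
  refine resLoc_mem_Z1loc' ρ ⟨hc.1, ?_⟩ v
  obtain ⟨U, hU, h⟩ := hc.2
  exact ⟨U, CFT.levS_le_levAll T hU, h⟩

theorem resLoc_mem_B1loc (ρ : Representation k GQ W) {c : GQ → W}
    (hc : c ∈ B1 ρ) (v : Nat.Primes) : resLoc k v c ∈ B1loc ρ v := by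
  obtain ⟨w, rfl⟩ := hc
  exact ⟨w, rfl⟩

end Res

namespace LocMin

theorem trace_det_of_charpoly {R : Type} [CommRing R] [Nontrivial R] (g : M2 R)
    (hg : g.charpoly = (X - 1) ^ 2) : g.trace = 2 ∧ g.det = 1 := by
  rw [Matrix.charpoly_fin_two] at hg
  have he : (X - 1 : R[X]) ^ 2 = X ^ 2 - C 2 * X + C 1 := by
    rw [map_ofNat, map_one]; ring
  rw [he] at hg
  have h0 := congrArg (fun P => P.coeff 0) hg
  have h1 := congrArg (fun P => P.coeff 1) hg
  simp only [coeff_add, coeff_sub, coeff_C_mul, coeff_X_pow, coeff_X, coeff_C] at h0 h1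
  norm_num at h0 h1
  exact ⟨h1, h0⟩

/-- the commutator equation `m N - N m = B` for a nonzero nilpotent `N` -/
theorem exists_comm {k : Type} [Field k] (u B : M2 k) (hne : u ≠ 1)
    (t1 : u 0 0 + u 1 1 = 2) (d1 : u 0 0 * u 1 1 - u 0 1 * u 1 0 = 1)
    (t2 : B 0 0 + B 1 1 = 0)
    (d2 : u 0 0 * B 1 1 + B 0 0 * u 1 1 - (u 0 1 * B 1 0 + B 0 1 * u 1 0) = 0) :
    ∃ m : M2 k, m * u = u * m + B := by
  have hB : B 1 1 = - B 0 0 := by linear_combination t2
  have hu : u 1 1 = 2 - u 0 0 := by linear_combination t1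
  rw [hB, hu] at d2
  rw [hu] at d1
  by_cases hy : u 0 1 = 0
  · by_cases hz : u 1 0 = 0
    · exfalso
      apply hne
      rw [hy, hz] at d1
      have hx : (u 0 0 - 1) ^ 2 = 0 := by linear_combination -d1
      have hx' : u 0 0 = 1 := by
        have := pow_eq_zero_iff (two_ne_zero) |>.1 hx
        linear_combination this
      ext i j
      fin_cases i <;> fin_cases j
      · exact hx'
      · exact hy
      · exact hz
      · show u 1 1 = 1
        rw [hu, hx']; norm_num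
    · refine ⟨!![0, B 0 0 / u 1 0; 0, B 1 0 / u 1 0], ?_⟩
      ext i j
      fin_cases i <;> fin_cases j
      · simp [Matrix.mul_apply, Fin.sum_univ_two]
        field_simp
      · simp [Matrix.mul_apply, Fin.sum_univ_two]
        rw [hu]
        field_simp
        linear_combination d2
      · simp [Matrix.mul_apply, Fin.sum_univ_two]
        field_simp
      · simp [Matrix.mul_apply, Fin.sum_univ_two]
        rw [hB]
        field_simp
        ring
  · refine ⟨!![B 0 1 / u 0 1, 0; - B 0 0 / u 0 1, 0], ?_⟩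
    ext i j
    fin_cases i <;> fin_cases j
    · simp [Matrix.mul_apply, Fin.sum_univ_two]
      field_simp
      ring
    · simp [Matrix.mul_apply, Fin.sum_univ_two]
      field_simp
    · simp [Matrix.mul_apply, Fin.sum_univ_two]
      rw [hu]
      field_simp
      linear_combination d2
    · simp [Matrix.mul_apply, Fin.sum_univ_two]
      rw [hB]
      field_simp

end LocMin

variable {p : ℕ} [Fact p.Prime] {k : Type} [Field k] [Finite k] [CharP k p] (h2 : (2 : k) ≠ 0)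

/-- (3) of [LOC-MIN]: pure matrix algebra over `k[ε]` -/
theorem exists_conj_unipotent (ubar : M2 k) (u₁ : M2 (DualNumber k))
    (hu : u₁.map TrivSqZeroExt.fst = ubar) (hne : ubar ≠ 1)
    (hchar : u₁.charpoly = (X - 1) ^ 2) :
    ∃ m : M2 k, (1 + m.map TrivSqZeroExt.inr) * ubar.map TrivSqZeroExt.inl =
      u₁ * (1 + m.map (TrivSqZeroExt.inr : k → DualNumber k)) := by
  obtain ⟨htr, hdet⟩ := LocMin.trace_det_of_charpoly u₁ hchar
  rw [Matrix.trace_fin_two] at htr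
  rw [Matrix.det_fin_two] at hdet
  have hf : ∀ i j, (u₁ i j).fst = ubar i j := fun i j => congrFun (congrFun hu i) j
  have e2 : (2 : DualNumber k) = TrivSqZeroExt.inl 2 := (map_ofNat (TrivSqZeroExt.inlHom k k) 2).symm
  rw [e2] at htr
  have t1 := congrArg TrivSqZeroExt.fst htr
  have t2 := congrArg TrivSqZeroExt.snd htr
  have d1 := congrArg TrivSqZeroExt.fst hdet
  have d2 := congrArg TrivSqZeroExt.snd hdet
  simp [hf] at t1 t2 d1 d2
  obtain ⟨m, hm⟩ := LocMin.exists_comm ubar (u₁.map TrivSqZeroExt.snd) hne t1 d1 t2 d2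
  refine ⟨m, ?_⟩
  change onePlus m * _ = u₁ * onePlus m
  apply dual_ext
  · rw [map_fst_mul, map_fst_mul, map_fst_onePlus, map_fst_map_inl, hu, one_mul, mul_one]
  · rw [map_snd_mul, map_snd_mul, map_fst_onePlus, map_snd_onePlus, map_fst_map_inl,
      map_snd_map_inl, hu, mul_zero, zero_add, mul_one, hm]

namespace LocMin

omit [Finite k] in
/-- (1) of [LOC-MIN] -/
theorem pow_p_eq_one (u : M2 (DualNumber k)) (hchar : u.charpoly = (X - 1) ^ 2) : u ^ p = 1 := by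
  have h1 : (u - 1) ^ 2 = 0 := by
    have := Matrix.aeval_self_charpoly u
    rw [hchar] at this
    simpa using this
  have h3 : ∀ n : ℕ, u ^ n = 1 + n • (u - 1) := by
    intro n
    obtain ⟨N, hN⟩ : ∃ N, N = u - 1 := ⟨_, rfl⟩
    have e : u = 1 + N := by rw [hN]; abel
    rw [← hN] at h1 ⊢
    rw [e]
    induction n with
    | zero => simp
    | succ n ih =>
      rw [pow_succ, ih, add_mul, one_mul, mul_add, mul_one, smul_mul_assoc, ← sq, h1, smul_zero,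
        add_zero, add_smul, one_smul]
      abel
  rw [h3 p]
  have hp0 : ((p : ℕ) : DualNumber k) = 0 := by
    have : ((p : ℕ) : DualNumber k) = TrivSqZeroExt.inl ((p : ℕ) : k) :=
      (map_natCast (TrivSqZeroExt.inlHom k k) p).symm
    rw [this, CharP.cast_eq_zero]
    rfl
  rw [← Nat.cast_smul_eq_nsmul (DualNumber k), hp0, zero_smul, add_zero]

end LocMin

/-- **[LOC-MIN]** -/
theorem resLoc_coc_mem_Lur (rbar : GQ →* M2 k) (q : Nat.Primes) (hqp : (q : ℕ) ≠ p)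
    (hram : ∃ σ ∈ inert q, rbar σ ≠ 1)
    (ρ₁ : GaloisRepAdic (DualNumber k)) (r₁ : GQ →* M2 (DualNumber k))
    (hm : S53.HasMatrix ρ₁ r₁) (hl : IsLift rbar r₁) (hu : ρ₁.IsUnipotentOnInertiaAt (q : ℕ)) :
    resLoc k q (coc h2 r₁) ∈ Lur (adRep rbar) q := by
  have hp : p.Prime := Fact.out
  have hA := liesOverPrime_primeLocalPlace q
  have hcop : Nat.Coprime p q := (Nat.coprime_primes hp q.2).2 (Ne.symm hqp)
  obtain ⟨L, hLfin, hL⟩ := (matCont_dualNumber_iff r₁).1 hm.matCont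
  -- the characteristic polynomial on inertia
  have hchar : ∀ σ ∈ inert q, (r₁ σ).charpoly = (X - 1) ^ 2 := by
    intro σ hσ
    obtain ⟨b, hb⟩ := hm
    rw [← hb σ, LinearMap.charpoly_toMatrix]
    exact hu _ hA σ hσ
  refine ⟨resLoc_mem_Z1loc' _ (coc_mem_Z1 h2 levAll hl ?_) q, ?_⟩
  · refine ⟨(IntermediateField.normalClosure ℚ L Qb).fixingSubgroup,
      ⟨_, normalClosure.is_finiteDimensional ℚ L Qb, normalClosure.normal ℚ L Qb, rfl⟩,
      fun s hs => hL s (fun x hx => ?_)⟩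
    exact hs ⟨x, IntermediateField.le_normalClosure L hx⟩
  -- cyclicity
  obtain ⟨σ₀, hσ₀⟩ := tame_cyclic q.2 hA (r₁.comp (inert q).subtype)
    ⟨L, hLfin, fun σ hσ => hL σ hσ⟩ p hcop (fun σ => LocMin.pow_p_eq_one _ (hchar σ σ.2))
  have hpow : ∀ σ ∈ inert q, ∃ n : ℕ, r₁ σ = r₁ σ₀ ^ n := fun σ hσ => hσ₀ ⟨σ, hσ⟩
  have hbar : ∀ (σ : GQ) (n : ℕ), r₁ σ = r₁ σ₀ ^ n → rbar σ = rbar σ₀ ^ n := by
    intro σ n h
    rw [← hl σ, h, ← map_pow, hl, map_pow]
  have hne : rbar σ₀ ≠ 1 := by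
    intro h1
    obtain ⟨σ, hσ, hσ1⟩ := hram
    obtain ⟨n, hn⟩ := hpow σ hσ
    rw [hbar σ n hn, h1, one_pow] at hσ1
    exact hσ1 rfl
  obtain ⟨m, hm'⟩ := exists_conj_unipotent (rbar σ₀) (r₁ σ₀) (hl σ₀) hne (hchar σ₀ σ₀.2)
  change onePlus m * _ = _ * onePlus m at hm'
  have hinl : ∀ (a : M2 k) (n : ℕ), (a ^ n).map (TrivSqZeroExt.inl : k → DualNumber k) =
      (a.map (TrivSqZeroExt.inl : k → DualNumber k)) ^ n := fun a n =>
    map_pow (TrivSqZeroExt.inlHom k k).mapMatrix a n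
  have hconj : ∀ n : ℕ, onePlus m * ((rbar σ₀).map (TrivSqZeroExt.inl : k → DualNumber k)) ^ n =
      r₁ σ₀ ^ n * onePlus m := by
    intro n
    induction n with
    | zero => simp
    | succ n ih => rw [pow_succ, ← mul_assoc, ih, mul_assoc, hm', pow_succ, mul_assoc]
  refine ⟨- toSl2 h2 m, fun σ hσ => ?_⟩
  obtain ⟨n, hn⟩ := hpow σ hσ
  have h1 : onePlus m * (rbar σ).map (TrivSqZeroExt.inl : k → DualNumber k) = r₁ σ * onePlus m := by
    rw [hbar σ n hn, hinl, hconj, hn]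
  have h3 := congrArg (fun X : M2 (DualNumber k) => X.map TrivSqZeroExt.snd) h1
  simp only [map_snd_mul, map_fst_onePlus, map_snd_onePlus, map_fst_map_inl, map_snd_map_inl,
    mul_zero, zero_add, mul_one, hl (σ : GQ)] at h3
  have h4 : cocM r₁ σ = - (adFull rbar σ m - m) := by
    have e : (r₁ σ).map TrivSqZeroExt.snd = m * rbar σ - rbar σ * m := by
      rw [h3]; abel
    rw [cocM, e, hl, adFull_apply, sub_mul, mul_assoc m, rbar_mul_inv, mul_one]
    abel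
  rw [resLoc_apply, coc, h4, map_neg, map_sub, toSl2_adFull, map_neg]
  abel

/-- (3) of [LOC-Q] -/
theorem exists_line_commutant (g : M2 k) (α β : k) (hαβ : α ≠ β)
    (hg : g.charpoly = (X - C α) * (X - C β)) :
    ∃ h₀ : M2 k, ∀ w : M2 k, w.trace = 0 → g * w = w * g → ∃ t : k, w = t • h₀ :=
  LocQ.exists_line_commutant g α β hαβ hg

/-- **[LOC-Q]** -/
theorem card_Z1loc_le (rbar : GQ →* M2 k) (hcont : GaloisFactorsThroughFiniteLevel rbar)
    (q : Nat.Primes) (hqp : (q : ℕ) ≠ p) (hq1 : p ∣ (q : ℕ) - 1)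
    (hur : ∀ σ ∈ inert q, rbar σ = 1) (φ : GQ) (hφ : (primeLocalPlace q).IsFrobeniusAt φ (q : ℕ))
    (α β : k) (hαβ : α ≠ β) (hchar : (rbar φ).charpoly = (X - C α) * (X - C β)) :
    Finite ↥(Z1loc (adRep rbar) q) ∧ Nat.card ↥(Z1loc (adRep rbar) q) ≤ Nat.card k ^ 4 :=
  LocQ.card_Z1loc_le rbar q hqp hq1 hur φ hφ α β hαβ hchar

end Fermat.Agent.S56
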